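import Fermat.Agent.CFT.Idele.Carry

/-!
# A class of full order from a cyclic compositum

`G` embeds in `Q × ℤ/n` by `π` and `χ`, both onto on each other's kernels.  A partial functional `ψ`
on invariants, killing norms for `χ` and equal to `1` on `x`, shows that the carry cocycle of `x`
splits on `ker π` and has order `n` above every subgroup of `Q` of index prime to `p`.
-/

set_option autoImplicit false
set_option linter.unusedSectionVars false
set_option linter.style.haveILetI false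

noncomputable section

namespace Fermat.Agent.CFT.Formation

open groupCohomology Fermat.Agent.CFT.Idele

variable {G Q A : Type*} [Group G] [Finite G] [Group Q] [Finite Q] [AddCommGroup A]
  [DistribMulAction G A] {n : ℕ}

/-- The hypotheses of the compositum argument. -/
structure Compositum (π : G →* Q) (χ : G →* Multiplicative (ZMod n)) (γ : G) : Prop where
  surjective : Function.Surjective π
  inj : ∀ g, π g = 1 → χ g = 1 → g = 1
  gen_ker : π γ = 1
  gen_chi : χ γ = Multiplicative.ofAdd 1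

variable [NeZero n] {π : G →* Q} {χ : G →* Multiplicative (ZMod n)} {γ : G} (hc : Compositum π χ γ)
include hc

theorem Compositum.pow_kills : γ ^ n = 1 :=
  hc.inj _ (by rw [map_pow, hc.gen_ker, one_pow]) (MonoidHom.mem_ker.1 (pow_mem_ker hc.gen_chi))

theorem Compositum.eq_pow_of_ker {g : G} (hg : π g = 1) : g = γ ^ chiVal χ g := by
  refine (inv_mul_eq_one.1 (hc.inj _ ?_ ?_)).symm
  · rw [map_mul, map_inv, map_pow, hc.gen_ker, one_pow, inv_one, one_mul, hg]
  · exact MonoidHom.mem_ker.1 (inv_pow_chiVal_mul_mem_ker hc.gen_chi g)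

theorem Compositum.commute {g : G} (hg : χ g = 1) (i : ℕ) : g * γ ^ i = γ ^ i * g := by
  refine mul_inv_eq_one.1 (hc.inj _ ?_ ?_)
  · simp [map_mul, map_inv, map_pow, hc.gen_ker]
  · simp [map_mul, map_inv, hg]

/-- The kernel of `χ` maps onto `Q`. -/
def Compositum.kerEquiv : χ.ker ≃* Q :=
  MulEquiv.ofBijective (π.comp χ.ker.subtype) ⟨fun g h e => by
      refine Subtype.ext (inv_mul_eq_one.1 (hc.inj _ ?_ ?_))
      · rw [map_mul, map_inv, inv_mul_eq_one]; exact e
      · rw [map_mul, map_inv, MonoidHom.mem_ker.1 g.2, MonoidHom.mem_ker.1 h.2, inv_one, one_mul],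
    fun q => by
      obtain ⟨g, rfl⟩ := hc.surjective q
      refine ⟨⟨(γ ^ chiVal χ g)⁻¹ * g, inv_pow_chiVal_mul_mem_ker hc.gen_chi g⟩, ?_⟩
      show π ((γ ^ chiVal χ g)⁻¹ * g) = π g
      rw [map_mul, map_inv, map_pow, hc.gen_ker, one_pow, inv_one, one_mul]⟩

theorem Compositum.sum_fix [Fintype χ.ker] (y : A) (hy : γ • y = y) (g : G) :
    g • normSum χ.ker A y = normSum χ.ker A y := by
  have hγ : ∀ i : ℕ, γ ^ i • y = y := fun i => by
    induction i with
    | zero => rw [pow_zero, one_smul]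
    | succ i ih => rw [pow_succ, mul_smul, hy, ih]
  conv_lhs => rw [← mul_inv_cancel_left (γ ^ chiVal χ g) g, mul_smul,
    show ((γ ^ chiVal χ g)⁻¹ * g) • normSum χ.ker A y =
      (⟨_, inv_pow_chiVal_mul_mem_ker hc.gen_chi g⟩ : χ.ker) • normSum χ.ker A y from rfl,
    smul_normSum]
  simp only [normSum, Finset.smul_sum]
  refine Finset.sum_congr rfl fun h _ => ?_
  show γ ^ chiVal χ g • (h : G) • y = (h : G) • y
  rw [smul_smul, ← hc.commute (MonoidHom.mem_ker.1 h.2), mul_smul, hγ]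

theorem Compositum.norm_mem_fixed (w : A) : γ • (∑ i ∈ Finset.range n, γ ^ i • w) =
    ∑ i ∈ Finset.range n, γ ^ i • w := by
  rw [Finset.smul_sum]
  simp only [smul_smul, ← pow_succ']
  have h1 := Finset.sum_range_succ' (fun i => γ ^ i • w) n
  have h2 := Finset.sum_range_succ (fun i => γ ^ i • w) n
  rw [h2, hc.pow_kills, pow_zero] at h1
  exact (add_right_cancel h1).symm

theorem Compositum.orderOf_gen (_hn : 1 < n) : orderOf γ = n := by
  refine Nat.dvd_antisymm (orderOf_dvd_of_pow_eq_one hc.pow_kills) ?_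
  have h := congrArg χ (pow_orderOf_eq_one γ)
  rw [map_pow, map_one, hc.gen_chi, ← ofAdd_nsmul, nsmul_one, ← ofAdd_zero,
    Multiplicative.ofAdd.injective.eq_iff, ZMod.natCast_eq_zero_iff] at h
  exact h

variable {p : ℕ} [hp : Fact p.Prime] {m : ℕ} (hn : n = p ^ (m + 1))
  (hA : CFT.StepAxioms p G A) (ψ : A → ZMod n)
  (hψ : ∀ a b : A, (∀ g : G, g • a = a) → (∀ g : G, g • b = b) → ψ (a + b) = ψ a + ψ b)
  (hnorm : ∀ z : A, (∀ g ∈ χ.ker, g • z = z) → ψ (∑ i ∈ Finset.range n, γ ^ i • z) = 0)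
  {x : A} (hx : ∀ g : G, g • x = x) (hψx : ψ x = 1)

omit hc hψx hn hA hnorm in
include hψ hx in
theorem psi_zsmul (j : ℤ) : ψ (j • x) = j * ψ x := by
  let f := AddMonoidHom.mk' (fun a : FixedPoints.addSubgroup G A => ψ a) fun a b => hψ _ _ a.2 b.2
  exact (map_zsmul f j ⟨x, hx⟩).trans (zsmul_eq_mul _ j)

include hn hA hψ hnorm hx hψx in
/-- The carry cocycle splits on the kernel of `π`. -/
theorem Compositum.isCoboundary_ker [Fintype χ.ker] (hdvd : n ∣ Nat.card Q)
    (hsurj : ∃ y : A, γ • y = y ∧ ψ (normSum χ.ker A y) = 1) :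
    IsCoboundary₂ fun gh : π.ker × π.ker => carryN χ x ((gh.1 : G), (gh.2 : G)) := by
  classical
  set T := normSum χ.ker A with hT
  have hTadd : ∀ a b, γ • a = a → γ • b = b → ψ (T (a + b)) = ψ (T a) + ψ (T b) := fun a b ha hb => by
    rw [hT, normSum_add, hψ _ _ (hc.sum_fix a ha) (hc.sum_fix b hb)]
  have hTN : ∀ w, ψ (T (∑ i ∈ Finset.range n, γ ^ i • w)) = 0 := fun w => by
    rw [show T (∑ i ∈ Finset.range n, γ ^ i • w) = ∑ i ∈ Finset.range n, γ ^ i • T w from ?_]
    · exact hnorm _ fun g hg => smul_normSum (⟨g, hg⟩ : χ.ker) w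
    simp only [hT, normSum, Finset.smul_sum]
    rw [Finset.sum_comm]
    refine Finset.sum_congr rfl fun i _ => Finset.sum_congr rfl fun h _ => ?_
    show (h : G) • γ ^ i • w = γ ^ i • (h : G) • w
    rw [smul_smul, smul_smul, hc.commute (MonoidHom.mem_ker.1 h.2)]
  obtain ⟨y, hy, hy1⟩ := hsurj
  have hyj : ∀ j : ℕ, ψ (T (j • y)) = j := fun j => by
    induction j with
    | zero =>
      have h := hTadd 0 0 (smul_zero _) (smul_zero _)
      rw [add_zero, left_eq_add] at h
      rw [zero_nsmul, h, Nat.cast_zero]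
    | succ j ih => rw [succ_nsmul, hTadd _ _ (by rw [smul_comm, hy]) hy, ih, hy1, Nat.cast_succ]
  have hgn : orderOf γ = p ^ (m + 1) :=
    (hc.orderOf_gen (hn ▸ Nat.one_lt_pow (by omega) hp.out.one_lt)).trans hn
  obtain ⟨R, hR⟩ : ∃ R : Fin n → A, ∀ a : A, γ • a = a →
      ∃ j w, a = R j + ∑ i ∈ Finset.range n, γ ^ i • w := by
    subst hn; exact exists_reps_cyclic hA (m + 1) γ hgn
  have hcls : ∀ a, γ • a = a → ∀ j w, a = R j + ∑ i ∈ Finset.range n, γ ^ i • w →
      γ • R j = R j ∧ ψ (T a) = ψ (T (R j)) := fun a ha j w e => by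
    have hRj : R j = a - ∑ i ∈ Finset.range n, γ ^ i • w := eq_sub_of_add_eq e.symm
    have hf : γ • R j = R j := by rw [hRj, smul_sub, ha, hc.norm_mem_fixed]
    refine ⟨hf, ?_⟩
    rw [e, hTadd _ _ hf (hc.norm_mem_fixed w), hTN, add_zero]
  choose J W hJW using hR
  have hφ : Function.Surjective fun j : Fin n => ψ (T (R j)) := fun r => by
    have hfix : γ • (r.val • y) = r.val • y := by rw [smul_comm, hy]
    refine ⟨J _ hfix, ?_⟩
    show ψ (T (R (J _ hfix))) = r
    rw [← (hcls _ hfix _ _ (hJW _ hfix)).2, hyj, ZMod.natCast_zmod_val]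
  have hinj := ((Fintype.bijective_iff_surjective_and_card _).2
    ⟨hφ, by rw [Fintype.card_fin, ZMod.card]⟩).1
  have hTx : T x = Nat.card Q • x := by
    rw [← Nat.card_congr hc.kerEquiv.toEquiv, Nat.card_eq_fintype_card, hT, normSum,
      Finset.sum_congr rfl fun (h : χ.ker) _ => (show h • x = x from hx h), Finset.sum_const,
      Finset.card_univ]
  have h0 : ψ (T x) = 0 := by
    rw [hTx, ← natCast_zsmul, psi_zsmul ψ hψ hx, hψx, mul_one, Int.cast_natCast,
      ZMod.natCast_eq_zero_iff]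
    exact hdvd
  have hz : γ • (0 : A) = 0 := smul_zero _
  have hjj : J x (hx γ) = J 0 hz := hinj <| by
    show ψ (T (R (J x (hx γ)))) = ψ (T (R (J 0 hz)))
    rw [← (hcls _ (hx γ) _ _ (hJW x (hx γ))).2, ← (hcls _ hz _ _ (hJW 0 hz)).2, h0]
    have := hyj 0
    rw [zero_nsmul, Nat.cast_zero] at this
    exact this.symm
  set w := W x (hx γ) - W 0 hz
  have hxw : x = ∑ i ∈ Finset.range n, γ ^ i • w := by
    have e1 := hJW x (hx γ)
    have e2 := hJW 0 hz
    simp only [w, smul_sub, Finset.sum_sub_distrib]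
    rw [hjj] at e1
    have e3 := congrArg₂ (· - ·) e1 e2
    simp only [sub_zero, add_sub_add_left_eq_sub] at e3
    exact e3
  have h := carryN_norm_mem (χ := χ.comp π.ker.subtype) (γ := (⟨γ, hc.gen_ker⟩ : π.ker))
    hc.gen_chi w fun k hk => by
      rw [show k = 1 from Subtype.ext (hc.inj _ k.2 hk), one_smul]
  obtain ⟨b, hb⟩ := h
  refine ⟨b, fun g h => ?_⟩
  rw [hb g h]
  show _ = carryN χ x ((g : G), (h : G))
  simp only [carryN]
  rw [show (∑ i ∈ Finset.range n, ((⟨γ, hc.gen_ker⟩ : π.ker)) ^ i • w) = x by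
    rw [hxw]; exact Finset.sum_congr rfl fun i _ => rfl]
  rfl

include hn hA hψ hnorm hx hψx in
/-- The carry cocycle has order `n` above a subgroup of index prime to `p`. -/
theorem Compositum.dvd_of_coboundary (P : Subgroup Q) (hP : IsPGroup p P) (hidx : ¬ p ∣ P.index)
    (k : ℤ) (hk : IsCoboundary₂ fun gh : P.comap π × P.comap π =>
      k • carryN χ x ((gh.1 : G), (gh.2 : G))) : (n : ℤ) ∣ k := by
  classical
  set H := P.comap π
  have hHp : IsPGroup p H := by
    refine hP.comap_of_ker_isPGroup π fun g => ⟨m + 1, ?_⟩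
    refine Subtype.ext ?_
    show (g : G) ^ p ^ (m + 1) = 1
    rw [← hn, hc.eq_pow_of_ker g.2, ← pow_mul, mul_comm, pow_mul, hc.pow_kills, one_pow]
  have hγH : γ ∈ H := by
    show π γ ∈ P
    rw [hc.gen_ker]; exact one_mem _
  set χ' : H →* Multiplicative (ZMod n) := χ.comp H.subtype
  have hK : H1Zero χ'.ker A :=
    (hA.h1Zero _ ((hHp.to_subgroup χ'.ker).map H.subtype)).of_equiv
      (χ'.ker.equivMapOfInjective H.subtype H.subtype_injective) fun _ _ => rfl
  have hn1 : 1 < n := hn ▸ Nat.one_lt_pow (by omega) hp.out.one_lt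
  obtain ⟨w, hw, hkx⟩ := exists_eq_norm_of_carryN (χ := χ') (γ := (⟨γ, hγH⟩ : H)) hn1 hc.gen_chi hK
    (x := k • x) <| by
      obtain ⟨b, hb⟩ := hk
      refine ⟨b, fun g h => (hb g h).trans ?_⟩
      simp only [carryN, smul_comm k]
      rfl
  set K : Subgroup χ.ker := P.comap (hc.kerEquiv : χ.ker →* Q)
  have hKidx : K.index = P.index := P.index_comap_of_surjective hc.kerEquiv.surjective
  letI : Fintype (χ.ker ⧸ K) := Fintype.ofFinite _
  have hwK : ∀ g : K, ((g : χ.ker) : G) • w = w := fun g =>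
    hw (⟨((g : χ.ker) : G), g.2⟩ : H) (show χ ((g : χ.ker) : G) = 1 from (g : χ.ker).2)
  set z := ∑ r : χ.ker ⧸ K, ((r.out : χ.ker) : G) • w
  have hz : ∀ g ∈ χ.ker, g • z = z := fun g hg => by
    rw [Finset.smul_sum]
    refine Fintype.sum_equiv (MulAction.toPerm (⟨g, hg⟩ : χ.ker)) _ _ fun r => ?_
    obtain ⟨h, hh⟩ := QuotientGroup.mk_out_eq_mul K ((⟨g, hg⟩ : χ.ker) * r.out)
    rw [MulAction.toPerm_apply, show ((⟨g, hg⟩ : χ.ker) • r) =
      (((⟨g, hg⟩ : χ.ker) * r.out : χ.ker) : χ.ker ⧸ K) by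
        conv_lhs => rw [← QuotientGroup.out_eq' r]
        rfl, hh, smul_smul, Subgroup.coe_mul, Subgroup.coe_mul, mul_smul (g * _), hwK h]
  have hsum : ∑ i ∈ Finset.range n, γ ^ i • z = ((P.index : ℤ) * k) • x := by
    have key : ∀ r : χ.ker ⧸ K,
        ∑ i ∈ Finset.range n, γ ^ i • (((Quotient.out r : χ.ker) : G) • w) = k • x := fun r => by
      rw [← hx (((Quotient.out r : χ.ker) : G)), smul_comm k, hkx, Finset.smul_sum]
      refine Finset.sum_congr rfl fun i _ => ?_
      rw [smul_smul, ← hc.commute (MonoidHom.mem_ker.1 (Quotient.out r : χ.ker).2), mul_smul]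
      rfl
    simp only [z, Finset.smul_sum]
    rw [Finset.sum_comm, Finset.sum_congr rfl fun r _ => key r, Finset.sum_const, Finset.card_univ,
      ← Nat.card_eq_fintype_card, show Nat.card (χ.ker ⧸ K) = K.index from rfl, hKidx,
      ← natCast_zsmul, smul_smul]
  have h0 := hnorm z hz
  rw [hsum] at h0
  rw [psi_zsmul ψ hψ hx, hψx, mul_one, ZMod.intCast_zmod_eq_zero_iff_dvd] at h0
  refine IsCoprime.dvd_of_dvd_mul_left ?_ h0
  rw [hn, Nat.cast_pow]
  exact ((Nat.prime_iff_prime_int.1 hp.out).coprime_iff_not_dvd.2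
    (by exact_mod_cast hidx)).pow_left

end Fermat.Agent.CFT.Formation
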