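import Fermat.Agent.CFT.Formation.NotNorm
import Fermat.Agent.CFT.LocalClass.Element
import Fermat.Agent.CFT.Coh.Transfer

/-!
# The local and global fundamental classes at a `p`-subgroup of a decomposition group

The image of the local class in the idele classes is a multiple of the global class, and the
multiple is prime to `p`: otherwise every invariant local element would be a global norm at a step.
-/

set_option autoImplicit false
set_option linter.unusedSectionVars false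
set_option linter.style.haveILetI false

noncomputable section

namespace Fermat.Agent.CFT.Formation

open groupCohomology ExtCitation Fermat.Agent.Arith IntermediateField Fermat.Agent.CFT.Local
open Fermat.Agent.CFT.Idele Fermat.Agent.CFT.Duality

local instance factPrimeCompat (q : Nat.Primes) : Fact (q : ℕ).Prime := ⟨q.2⟩

variable {p : ℕ} [hp : Fact p.Prime] {L : IntermediateField ℚ QBar} [FiniteDimensional ℚ L]
  [Normal ℚ L]

/-- The preimage in the local Galois group of a subgroup of the decomposition group. -/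
def decompPre (q : Nat.Primes) {P : Subgroup (L ≃ₐ[ℚ] L)} (hP : P ≤ decomp L q) :
    P →* (E L q ≃ₐ[ℚ_[(q : ℕ)]] E L q) :=
  (MonoidHom.ofInjective (toGlobal_injective (q : ℕ) L)).symm.toMonoidHom.comp
    (Subgroup.inclusion hP)

theorem toGlobal_decompPre (q : Nat.Primes) {P : Subgroup (L ≃ₐ[ℚ] L)} (hP : P ≤ decomp L q)
    (x : P) : toGlobal (q : ℕ) L (decompPre q hP x) = x :=
  congrArg Subtype.val
    ((MonoidHom.ofInjective (toGlobal_injective (q : ℕ) L)).apply_symm_apply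
      (Subgroup.inclusion hP x))

theorem decompPre_injective (q : Nat.Primes) {P : Subgroup (L ≃ₐ[ℚ] L)} (hP : P ≤ decomp L q) :
    Function.Injective (decompPre q hP) := fun x y h => Subtype.ext <| by
  rw [← toGlobal_decompPre q hP x, h, toGlobal_decompPre q hP y]

/-- The multiplicative group of the completion as a module over a subgroup of the decomposition
group. -/
def LocMod (q : Nat.Primes) {P : Subgroup (L ≃ₐ[ℚ] L)} (_hP : P ≤ decomp L q) : Type :=
  Additive (E L q)ˣ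

namespace LocMod

variable {q : Nat.Primes} {P : Subgroup (L ≃ₐ[ℚ] L)} {hP : P ≤ decomp L q}

instance : AddCommGroup (LocMod q hP) := inferInstanceAs (AddCommGroup (Additive (E L q)ˣ))

instance localAction : DistribMulAction (E L q ≃ₐ[ℚ_[(q : ℕ)]] E L q) (LocMod q hP) :=
  inferInstanceAs (DistribMulAction (E L q ≃ₐ[ℚ_[(q : ℕ)]] E L q) (Additive (E L q)ˣ))

instance globalAction : DistribMulAction P (LocMod q hP) :=
  DistribMulAction.compHom _ (decompPre q hP)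

theorem smul_def (x : P) (a : LocMod q hP) : x • a = decompPre q hP x • a := rfl

/-- The underlying local element. -/
def toLoc : LocMod q hP →+ Additive (E L q)ˣ := AddMonoidHom.id _

theorem toLoc_smul (x : P) (a : LocMod q hP) : toLoc (x • a) = decompPre q hP x • toLoc a := rfl

/-- The map into the idele classes. -/
def toC : LocMod q hP →+ C L := ((proj L).comp (loc' L q)).comp toLoc

theorem toC_apply (a : LocMod q hP) : toC a = proj L (loc' L q (toLoc a)) := rfl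

theorem toC_smul (x : P) (a : LocMod q hP) : toC (x • a) = (x : L ≃ₐ[ℚ] L) • toC a := by
  rw [toC_apply, toLoc_smul, loc'_smul, toGlobal_decompPre, proj_smul, toC_apply]

end LocMod

variable (L) in
/-- The map from the completion into the idele classes. -/
def locJ (q : Nat.Primes) : Additive (E L q)ˣ →+ C L := (proj L).comp (loc' L q)

theorem locJ_apply (q : Nat.Primes) (a : Additive (E L q)ˣ) :
    locJ L q a = proj L (loc' L q a) := rfl

theorem locJ_smul (q : Nat.Primes) (t : E L q ≃ₐ[ℚ_[(q : ℕ)]] E L q) (a : Additive (E L q)ˣ) :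
    locJ L q (t • a) = toGlobal (q : ℕ) L t • locJ L q a := by
  rw [locJ_apply, loc'_smul, proj_smul, locJ_apply]

/-- A step of local Galois groups gives a step of global ones. -/
theorem isStep_map (q : Nat.Primes) {H K : Subgroup (E L q ≃ₐ[ℚ_[(q : ℕ)]] E L q)}
    {g : E L q ≃ₐ[ℚ_[(q : ℕ)]] E L q} (hs : CFT.IsStep p H K g) :
    CFT.IsStep p (H.map (toGlobal (q : ℕ) L)) (K.map (toGlobal (q : ℕ) L))
      (toGlobal (q : ℕ) L g) := by
  have hψi := toGlobal_injective (q : ℕ) L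
  refine ⟨Subgroup.map_mono hs.le, Subgroup.mem_map_of_mem _ hs.mem, fun hm => ?_,
    hs.isPGroup.map _, ?_⟩
  · obtain ⟨y, hy, hyg⟩ := Subgroup.mem_map.mp hm
    exact hs.notMem (hψi hyg ▸ hy)
  · rw [Subgroup.relIndex_map_map_of_injective _ _ hψi]
    exact hs.relIndex

/-- The carried element of the local class at a step is not a local norm. -/
theorem exists_local_carry (q : Nat.Primes)
    {ul : NormCocycle (E L q ≃ₐ[ℚ_[(q : ℕ)]] E L q) (Additive (E L q)ˣ)}
    [Fintype (E L q ≃ₐ[ℚ_[(q : ℕ)]] E L q)]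
    (hul : IsClassFormation p ul) {H K : Subgroup (E L q ≃ₐ[ℚ_[(q : ℕ)]] E L q)}
    {g : E L q ≃ₐ[ℚ_[(q : ℕ)]] E L q} (hs : CFT.IsStep p H K g)
    (χ : H →* Multiplicative (ZMod p)) (hχ : Function.Surjective χ)
    (hker : χ.ker = K.subgroupOf H) (hg : χ ⟨g, hs.mem⟩ = Multiplicative.ofAdd 1) :
    ∃ (x : Additive (E L q)ˣ) (b : H → Additive (E L q)ˣ), (∀ h ∈ H, h • x = x) ∧
      (∀ a c : H, (a : E L q ≃ₐ[ℚ_[(q : ℕ)]] E L q) • b c - b (a * c) + b a =
        (Nat.card K : ℤ) • ul.toFun ((a : E L q ≃ₐ[ℚ_[(q : ℕ)]] E L q),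
          (c : E L q ≃ₐ[ℚ_[(q : ℕ)]] E L q)) - carry χ x (a, c)) ∧
      ∀ w, (∀ t ∈ K, t • w = w) → x ≠ stepNorm p g w := by
  have hlA := LocalClass.stepAxioms p (E L q)
  let uH : H × H → Additive (E L q)ˣ := fun x =>
    ul.toFun ((x.1 : E L q ≃ₐ[ℚ_[(q : ℕ)]] E L q), (x.2 : E L q ≃ₐ[ℚ_[(q : ℕ)]] E L q))
  have huH : IsCocycle₂ uH := fun a b d => ul.isCocycle _ _ _
  obtain ⟨x, hx, hcx⟩ := exists_carry_congr hs (hlA.h1Zero K hs.isPGroup_left) χ hχ hker hg
    ((Nat.card K : ℤ) • uH) (isCocycle₂_zsmul huH _)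
    (hlA.card_zsmul_mem K hs.isPGroup_left (fun y => uH (⟨y.1, hs.le y.1.2⟩, ⟨y.2, hs.le y.2.2⟩))
      fun a b d => huH ⟨a.1, hs.le a.2⟩ ⟨b.1, hs.le b.2⟩ ⟨d.1, hs.le d.2⟩)
  have hxN : ∀ w, (∀ t ∈ K, t • w = w) → x ≠ stepNorm p g w := fun w hw e => by
    have h1 : (Nat.card K : ℤ) • uH ∈ cobound₂ H (Additive (E L q)ˣ) := by
      rw [← sub_add_cancel ((Nat.card K : ℤ) • uH) (carry χ x)]
      exact add_mem hcx (e ▸ carry_stepNorm_mem hs χ hker hg w hw)
    have h2 := hul.order H hs.isPGroup _ h1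
    rw [hs.card_eq, Nat.cast_mul] at h2
    have h3 : (p * Nat.card K : ℕ) ∣ Nat.card K := by exact_mod_cast h2
    have := Nat.le_of_dvd Nat.card_pos h3
    nlinarith [hp.out.one_lt, Nat.card_pos (α := K)]
  obtain ⟨b, hb⟩ := hcx
  exact ⟨x, b, hx, fun a c => hb a c, hxN⟩

/-- If the pushed local class at a step is divisible by `p`, its carried element is a global
norm. -/
theorem exists_norm_of_dvd (hp2 : p ≠ 2) {ζ : L} (hζ : IsPrimitiveRoot ζ p)
    {u : NormCocycle (L ≃ₐ[ℚ] L) (C L)} (hu : IsClassFormation p u)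
    {H K : Subgroup (L ≃ₐ[ℚ] L)} {g : L ≃ₐ[ℚ] L} (hs : CFT.IsStep p H K g)
    (χ : H →* Multiplicative (ZMod p)) (hker : χ.ker = K.subgroupOf H)
    (hg : χ ⟨g, hs.mem⟩ = Multiplicative.ofAdd 1) (k : ℤ) (x : C L) (b₁ b₂ : H → C L)
    (v : H × H → C L)
    (hv : ∀ a d : H, (a : L ≃ₐ[ℚ] L) • b₂ d - b₂ (a * d) + b₂ a =
      (p * k) • u.toFun ((a : L ≃ₐ[ℚ] L), (d : L ≃ₐ[ℚ] L)) - v (a, d))
    (hx : ∀ a d : H, (a : L ≃ₐ[ℚ] L) • b₁ d - b₁ (a * d) + b₁ a =
      (Nat.card K : ℤ) • v (a, d) - Idele.carryN χ x (a, d)) :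
    ∃ W : C L, (∀ t ∈ K, t • W = W) ∧ x = stepNorm p g W := by
  obtain ⟨b₃, hb₃⟩ : IsCoboundary₂ fun y : H × H =>
      (Nat.card H : ℤ) • u.toFun ((y.1 : L ≃ₐ[ℚ] L), (y.2 : L ≃ₐ[ℚ] L)) :=
    (Idele.stepAxioms L hp2 hζ).card_zsmul_mem H hs.isPGroup
      (fun y => u.toFun ((y.1 : L ≃ₐ[ℚ] L), (y.2 : L ≃ₐ[ℚ] L))) fun a b d => u.isCocycle _ _ _
  have hpush : IsCoboundary₂ (Idele.carryN χ x) := by
    refine ⟨fun h => k • b₃ h - (Nat.card K : ℤ) • b₂ h - b₁ h, fun a d => ?_⟩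
    have e3 := hb₃ a d
    simp only [Subgroup.smul_def] at e3 ⊢
    rw [hs.card_eq, Nat.cast_mul] at e3
    simp only [smul_sub, smul_comm (a : L ≃ₐ[ℚ] L) (_ : ℤ)]
    have e1 := hx a d
    have e2 := congrArg ((Nat.card K : ℤ) • ·) (hv a d)
    have e3' := congrArg (k • ·) e3
    simp only [smul_sub, smul_add, smul_smul] at e2 e3'
    rw [show (Nat.card K : ℤ) * (↑p * k) = k * (↑p * (Nat.card K : ℤ)) by ring, ← e3'] at e2
    rw [← sub_eq_zero] at e1 e2
    refine sub_eq_zero.mp (Eq.trans ?_ ((congrArg₂ (fun a b => -a - b) e1 e2).trans (by simp)))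
    abel
  obtain ⟨W, hW, hxW⟩ := Idele.exists_eq_norm_of_carryN (γ := ⟨g, hs.mem⟩) (x := x)
    hp.out.one_lt hg
    (by rw [hker]; exact h1Zero_subgroupOf hs.le (hu.h1 _ hs.isPGroup_left)) hpush
  refine ⟨W, fun t ht => hW ⟨t, hs.le ht⟩ (by rw [hker]; exact Subgroup.mem_subgroupOf.mpr ht), ?_⟩
  refine hxW.trans (Finset.sum_congr rfl fun i _ => ?_)
  rw [Subgroup.smul_def, SubmonoidClass.coe_pow]

/-- If an element which is not a norm maps to a norm, all invariant elements map to norms. -/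
theorem exists_norm_of_gen {G G' A B : Type*} [Group G] [Group G'] [AddCommGroup A]
    [DistribMulAction G A] [AddCommGroup B] [DistribMulAction G' B] (ψ : G →* G') (j : A →+ B)
    (hj : ∀ (t : G) (a : A), j (t • a) = ψ t • j a) {H K : Subgroup G} {g : G} (hle : K ≤ H)
    (hg : g ∈ H)
    (hgen : ∃ x₀ : A, (∀ h ∈ H, h • x₀ = x₀) ∧ ∀ z : A, (∀ h ∈ H, h • z = z) →
      ∃ (m : ℤ) (b : A), (∀ k ∈ K, k • b = b) ∧ z = m • x₀ + stepNorm p g b)
    {x : A} (hx : ∀ h ∈ H, h • x = x) (hxN : ∀ w, (∀ t ∈ K, t • w = w) → x ≠ stepNorm p g w)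
    {W : B} (hW : ∀ t ∈ K.map ψ, t • W = W) (hxW : j x = stepNorm p (ψ g) W) {y : A}
    (hy : ∀ h ∈ H, h • y = y) :
    ∃ w : B, (∀ t ∈ K.map ψ, t • w = w) ∧ j y = stepNorm p (ψ g) w := by
  obtain ⟨x₀, hx₀, hgen⟩ := hgen
  obtain ⟨m₀, b₀, hb₀, hxm⟩ := hgen x hx
  have hx₀p : ∀ d : ℤ, stepNorm p g (d • x₀) = ((p : ℤ) * d) • x₀ := fun d => by
    rw [stepNorm, Finset.sum_congr rfl fun i _ => (show g ^ i • d • x₀ = d • x₀ by
      rw [smul_comm, hx₀ _ (pow_mem hg i)]), Finset.sum_const, Finset.card_range,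
      mul_smul, natCast_zsmul]
  have hadd : ∀ a b : A, stepNorm p g (a + b) = stepNorm p g a + stepNorm p g b :=
    fun a b => by simp only [stepNorm, smul_add, Finset.sum_add_distrib]
  have haddG : ∀ a b : B, stepNorm p (ψ g) (a + b) = stepNorm p (ψ g) a + stepNorm p (ψ g) b :=
    fun a b => by simp only [stepNorm, smul_add, Finset.sum_add_distrib]
  have hzG : ∀ (d : ℤ) (a : B), stepNorm p (ψ g) (d • a) = d • stepNorm p (ψ g) a := fun d a => by
    simp only [stepNorm, Finset.smul_sum, smul_comm (_ : G') d]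
  have hm₀ : ¬ (p : ℤ) ∣ m₀ := by
    rintro ⟨d, rfl⟩
    refine hxN (d • x₀ + b₀) (fun t ht => by
      rw [smul_add, smul_comm, hx₀ t (hle ht), hb₀ t ht]) ?_
    rw [hadd, hx₀p, hxm]
  obtain ⟨m, bm, hbm, hym⟩ := hgen y hy
  obtain ⟨a, c, hac⟩ := ((Nat.prime_iff_prime_int.mp hp.out).coprime_iff_not_dvd.mpr hm₀)
  have hfix : ∀ (z : A), (∀ t ∈ K, t • z = z) → ∀ t ∈ K.map ψ, t • j z = j z := fun z hz t ht => by
    obtain ⟨t, ht', rfl⟩ := Subgroup.mem_map.mp ht
    rw [← hj, hz t ht']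
  have hjN : ∀ z, j (stepNorm p g z) = stepNorm p (ψ g) (j z) := fun z => by
    simp only [stepNorm, map_sum, hj, map_pow]
  refine ⟨(m * c) • (W + (-1 : ℤ) • j b₀) + (m * a) • j x₀ + j bm, fun t ht => ?_, ?_⟩
  · simp only [smul_add, smul_comm t (_ : ℤ), hW t ht, hfix b₀ hb₀ t ht, hfix bm hbm t ht,
      hfix x₀ (fun t ht => hx₀ t (hle ht)) t ht]
  · have exx := congrArg j hxm
    rw [map_add, map_zsmul, hjN, hxW] at exx
    have ep := congrArg j (hx₀p 1)
    rw [hjN, one_smul, mul_one, map_zsmul] at ep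
    have hm : m = m * c * m₀ + m * a * p := by linear_combination -m * hac
    rw [hym, map_add, map_zsmul, hjN, haddG, haddG, hzG, haddG, hzG, hzG, exx, ep]
    nth_rw 1 [hm]
    module

/-- At a step inside a decomposition group the pushed local class is not divisible by `p`. -/
theorem not_dvd_of_step (hp2 : p ≠ 2) {ζ : L} (hζ : IsPrimitiveRoot ζ p) (q : Nat.Primes)
    [Fintype (E L q ≃ₐ[ℚ_[(q : ℕ)]] E L q)]
    {u : NormCocycle (L ≃ₐ[ℚ] L) (C L)} (hu : IsClassFormation p u)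
    {ul : NormCocycle (E L q ≃ₐ[ℚ_[(q : ℕ)]] E L q) (Additive (E L q)ˣ)}
    (hul : IsClassFormation p ul) {H K : Subgroup (E L q ≃ₐ[ℚ_[(q : ℕ)]] E L q)}
    {g : E L q ≃ₐ[ℚ_[(q : ℕ)]] E L q} (hs : CFT.IsStep p H K g) (k : ℤ)
    (b : (L ≃ₐ[ℚ] L) → C L)
    (hk : ∀ a c : E L q ≃ₐ[ℚ_[(q : ℕ)]] E L q, a ∈ H → c ∈ H →
      toGlobal (q : ℕ) L a • b (toGlobal (q : ℕ) L c) - b (toGlobal (q : ℕ) L (a * c)) +
        b (toGlobal (q : ℕ) L a) =
      (p * k) • u.toFun (toGlobal (q : ℕ) L a, toGlobal (q : ℕ) L c) -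
        locJ L q (ul.toFun (a, c))) : False := by
  classical
  set ψ := toGlobal (q : ℕ) L with hψ
  have hψi : Function.Injective ψ := toGlobal_injective (q : ℕ) L
  set ε := H.equivMapOfInjective ψ hψi
  have hεc : ∀ h : H.map ψ, ψ (ε.symm h : E L q ≃ₐ[ℚ_[(q : ℕ)]] E L q) = h := fun h =>
    congrArg Subtype.val (ε.apply_symm_apply h)
  obtain ⟨χ, hχ, hker, hg⟩ := hs.exists_char
  obtain ⟨x, bl, hx, hbl, hxN⟩ := exists_local_carry q hul hs χ hχ hker hg
  have hsG := isStep_map q hs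
  set χg : H.map ψ →* Multiplicative (ZMod p) := χ.comp ε.symm.toMonoidHom with hχg
  have hkerg : χg.ker = (K.map ψ).subgroupOf (H.map ψ) := by
    ext h
    obtain ⟨h, rfl⟩ := ε.surjective h
    rw [MonoidHom.mem_ker, hχg, MonoidHom.comp_apply, MulEquiv.coe_toMonoidHom, ε.symm_apply_apply,
      ← MonoidHom.mem_ker, hker, Subgroup.mem_subgroupOf, Subgroup.mem_subgroupOf]
    exact ⟨fun hh => Subgroup.mem_map_of_mem ψ hh, fun hh => by
      obtain ⟨y, hy, hye⟩ := Subgroup.mem_map.mp hh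
      exact hψi hye ▸ hy⟩
  have hgg : χg ⟨ψ g, hsG.mem⟩ = Multiplicative.ofAdd 1 := by
    rw [hχg, MonoidHom.comp_apply, MulEquiv.coe_toMonoidHom]
    rw [show (⟨ψ g, hsG.mem⟩ : H.map ψ) = ε ⟨g, hs.mem⟩ from rfl, ε.symm_apply_apply, hg]
  have hcardK : Nat.card (K.map ψ) = Nat.card K :=
    (Nat.card_congr (K.equivMapOfInjective ψ hψi).toEquiv).symm
  have hex := exists_norm_of_dvd hp2 hζ hu hsG χg hkerg hgg k (locJ L q x)
    (fun h => locJ L q (bl (ε.symm h))) (fun h => b h)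
    (fun y => locJ L q (ul.toFun ((ε.symm y.1 : E L q ≃ₐ[ℚ_[(q : ℕ)]] E L q),
      (ε.symm y.2 : E L q ≃ₐ[ℚ_[(q : ℕ)]] E L q))))
    (fun a d => by
      have e := hk _ _ (ε.symm a).2 (ε.symm d).2
      rw [map_mul, hεc, hεc] at e
      exact e)
    (fun a d => by
      have e := congrArg (locJ L q) (hbl (ε.symm a) (ε.symm d))
      rw [← map_mul ε.symm, map_add, map_sub, map_sub, map_zsmul, locJ_smul, hεc] at e
      rw [hcardK, e]
      congr 1
      exact map_nsmul _ _ _)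
  obtain ⟨W, hW, hxW⟩ := hex
  -- so every invariant local element is a global norm
  obtain ⟨y, hy, hyN⟩ := exists_loc_ne_norm hp2 hζ q hsG (Subgroup.map_le_range ψ _)
  obtain ⟨w, hw, hyw⟩ := exists_norm_of_gen ψ (locJ L q) (locJ_smul q) hs.le hs.mem
    ((LocalClass.stepAxioms p (E L q)).index_le H K g hs) hx hxN hW hxW
    (y := y) fun t ht => hy t (Subgroup.mem_map_of_mem ψ ht)
  exact hyN w hw hyw

/-- The local class at a `p`-subgroup of a decomposition group maps to a multiple, prime to `p`,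
of the global class. -/
theorem exists_splitHom (hp2 : p ≠ 2) {ζ : L} (hζ : IsPrimitiveRoot ζ p) (q : Nat.Primes)
    {P : Subgroup (L ≃ₐ[ℚ] L)} (hP : P ≤ decomp L q) (hPp : IsPGroup p P)
    {u : NormCocycle (L ≃ₐ[ℚ] L) (C L)} (hu : IsClassFormation p u) :
    ∃ (uv : NormCocycle P (LocMod q hP)) (σ : SplitHom P uv u),
      IsClassFormation p uv ∧ ¬ (p : ℤ) ∣ σ.s ∧ σ.j = LocMod.toC := by
  classical
  haveI : Fintype (E L q ≃ₐ[ℚ_[(q : ℕ)]] E L q) := Fintype.ofFinite _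
  obtain ⟨ul, hul⟩ := LocalClass.exists_classFormation (E := E L q) p
  let ul' : NormCocycle (E L q ≃ₐ[ℚ_[(q : ℕ)]] E L q) (LocMod q hP) := ul
  let uv : NormCocycle P (LocMod q hP) := pullCocycle (decompPre q hP) (fun _ _ => rfl) ul'
  have huv : IsClassFormation p uv :=
    isClassFormation_pullCocycle (decompPre q hP) (fun _ _ => rfl) (decompPre_injective q hP)
      (u := ul') hul
  let c : P × P → C L := fun x => LocMod.toC (uv.toFun x)
  have hc : IsCocycle₂ c := fun a b d => by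
    show LocMod.toC (uv.toFun _) + LocMod.toC (uv.toFun _) =
      (a : L ≃ₐ[ℚ] L) • LocMod.toC (uv.toFun _) + LocMod.toC (uv.toFun _)
    rw [← LocMod.toC_smul, ← map_add, ← map_add, uv.isCocycle a b d]
  rcases subsingleton_or_nontrivial P with hs | hnt
  · refine ⟨uv, ⟨LocMod.toC, 1, 0, LocMod.toC_smul, fun a b => ?_⟩, huv, fun h => ?_, rfl⟩
    · obtain rfl : a = 1 := Subsingleton.elim _ _
      rw [uv.one_left, map_zero, OneMemClass.coe_one, u.one_left]
      simp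
    · exact hp.out.not_dvd_one (Int.natCast_dvd_natCast.mp (h : (p : ℤ) ∣ ((1 : ℕ) : ℤ)))
  obtain ⟨k, b, hb⟩ := hu.generates P hPp c hc
  refine ⟨uv, ⟨LocMod.toC, k, b, LocMod.toC_smul, fun a d => ?_⟩, huv, ?_, rfl⟩
  · rw [show (a : L ≃ₐ[ℚ] L) • b d - b (a * d) + b a = _ from hb a d, add_sub_cancel]
  rintro ⟨k', rfl⟩
  set ψ := toGlobal (q : ℕ) L
  set P' := P.comap ψ
  have hPP' : P'.map ψ = P := Subgroup.map_comap_eq_self hP
  haveI hnt' : Nontrivial P' := by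
    refine (Subgroup.nontrivial_iff_ne_bot P').mpr fun h0 => ?_
    exact (Subgroup.nontrivial_iff_ne_bot P).mp hnt (by rw [← hPP', h0, Subgroup.map_bot])
  obtain ⟨K, g, hst⟩ := exists_isStep
    (hPp.comap_of_injective ψ (toGlobal_injective _ L) : IsPGroup p P')
  refine not_dvd_of_step hp2 hζ q hu hul hst k'
    (fun z => if hz : z ∈ P then -b ⟨z, hz⟩ else 0) fun a d ha hd => ?_
  have ha' : ψ a ∈ P := ha
  have hd' : ψ d ∈ P := hd
  have e := hb ⟨ψ a, ha'⟩ ⟨ψ d, hd'⟩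
  have hpre : ∀ (t : E L q ≃ₐ[ℚ_[(q : ℕ)]] E L q) (ht : ψ t ∈ P),
      decompPre q hP ⟨ψ t, ht⟩ = t := fun t ht => toGlobal_injective _ L <| by
    rw [toGlobal_decompPre]
  have had : ψ (a * d) ∈ P := by rw [map_mul]; exact mul_mem ha' hd'
  rw [dif_pos ha', dif_pos hd', dif_pos had]
  have hmul : (⟨ψ (a * d), had⟩ : P) = ⟨ψ a, ha'⟩ * ⟨ψ d, hd'⟩ := Subtype.ext (map_mul _ _ _)
  rw [hmul, smul_neg]
  simp only [c, Subgroup.smul_def] at e
  rw [LocMod.toC_apply] at e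
  have hcv : locJ L q (ul.toFun (a, d)) =
      proj L (loc' L q (LocMod.toLoc (uv.toFun (⟨ψ a, ha'⟩, ⟨ψ d, hd'⟩)))) := by
    show _ = proj L (loc' L q (LocMod.toLoc (ul'.toFun (decompPre q hP ⟨ψ a, ha'⟩,
      decompPre q hP ⟨ψ d, hd'⟩))))
    rw [hpre, hpre]
    rfl
  rw [hcv]
  refine Eq.trans ?_ ((congrArg Neg.neg e).trans (neg_sub _ _))
  simp only [neg_sub, neg_add_rev, sub_neg_eq_add]
  abel

end Fermat.Agent.CFT.Formation
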