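import Fermat.Agent.CFT.Formation.Carry

/-!
# Descending the carry class of a compositum
-/

set_option autoImplicit false
set_option linter.unusedSectionVars false
set_option linter.style.haveILetI false

noncomputable section

namespace Fermat.Agent.CFT.Formation

open groupCohomology Fermat.Agent.CFT.Idele

/-- A normalised cocycle in the class of a cocycle. -/
theorem exists_normCocycle {G C : Type*} [Group G] [AddCommGroup C] [DistribMulAction G C]
    (c : G × G → C) (hc : IsCocycle₂ c) :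
    ∃ (u : NormCocycle G C) (b : G → C),
      ∀ g h, c (g, h) = u.toFun (g, h) + (g • b h - b (g * h) + b g) := by
  refine ⟨⟨c - dOne (fun _ => c (1, 1)), isCocycle₂_sub hc (isCocycle₂_dOne _), fun g => ?_⟩,
    fun _ => c (1, 1), fun g h => (sub_add_cancel (c (g, h)) _).symm⟩
  show c (1, g) - dOne (fun _ : G => c (1, 1)) (1, g) = 0
  have e := hc 1 1 g
  simp only [one_mul, mul_one, one_smul] at e
  simp only [dOne, one_smul, sub_self, zero_add, sub_eq_zero]
  exact (add_left_cancel e).symm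

variable {G Q A B : Type*} [Group G] [Finite G] [Group Q] [Fintype Q] [AddCommGroup A]
  [DistribMulAction G A] [AddCommGroup B] [DistribMulAction Q B] {n : ℕ} [NeZero n]
  {π : G →* Q} {χ : G →* Multiplicative (ZMod n)} {γ : G} (hc : Compositum π χ γ)

include hc in
/-- The descended class gives a class formation. -/
theorem Compositum.exists_classFormation {p : ℕ} [hp : Fact p.Prime] {m : ℕ}
    (hn : n = p ^ (m + 1)) (hm : (Nat.card Q).factorization p = m + 1)
    (hA : CFT.StepAxioms p G A) (hB : CFT.StepAxioms p Q B)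
    (ι : B →+ A) (hι : Function.Injective ι) (hinv : ∀ g x, g • ι x = ι (π g • x))
    (hfix : ∀ a : A, (∀ k : π.ker, (k : G) • a = a) → ∃ x, ι x = a)
    (ψ : A → ZMod n)
    (hψ : ∀ a b : A, (∀ g : G, g • a = a) → (∀ g : G, g • b = b) → ψ (a + b) = ψ a + ψ b)
    (hnorm : ∀ z : A, (∀ g ∈ χ.ker, g • z = z) → ψ (∑ i ∈ Finset.range n, γ ^ i • z) = 0)
    {x : A} (hx : ∀ g : G, g • x = x) (hψx : ψ x = 1) [Fintype χ.ker]
    (hsurj : ∃ y : A, γ • y = y ∧ ψ (normSum χ.ker A y) = 1) :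
    ∃ u : NormCocycle Q B, IsClassFormation p u := by
  have hker : IsPGroup p π.ker := fun g => ⟨m + 1, Subtype.ext (by
    show (g : G) ^ p ^ (m + 1) = 1
    rw [← hn, hc.eq_pow_of_ker g.2, ← pow_mul, mul_comm, pow_mul, hc.pow_kills, one_pow])⟩
  have hdvd : n ∣ Nat.card Q := by rw [hn, ← hm]; exact Nat.ordProj_dvd _ _
  obtain ⟨c₀, hc₀, b, hb⟩ := exists_descend₂ π hc.surjective ι hι hinv hfix
    (hA.h1Zero π.ker hker) (carryN χ x) (isCocycle₂_carryN hx)
    (hc.isCoboundary_ker hn hA ψ hψ hnorm hx hψx hdvd hsurj)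
  obtain ⟨u, e, he⟩ := exists_normCocycle c₀ hc₀
  refine ⟨u, hB.isClassFormation u fun P k hk => ?_⟩
  rw [P.card_eq_multiplicity, hm, ← hn]
  obtain ⟨t, ht⟩ := hk
  refine hc.dvd_of_coboundary hn hA ψ hψ hnorm hx hψx (P : Subgroup Q) P.isPGroup' P.not_dvd_index k
    ⟨fun g => ι (k • e (π g) + t ⟨π g, Subgroup.mem_comap.1 g.2⟩) + k • b g, fun g h => ?_⟩
  have h1 := hb (g : G) (h : G)
  have h2 := he (π g) (π h)
  have h3 : π g • t ⟨π h, Subgroup.mem_comap.1 h.2⟩ - t ((⟨π g, Subgroup.mem_comap.1 g.2⟩ : (P : Subgroup Q)) * ⟨π h, Subgroup.mem_comap.1 h.2⟩) + t ⟨π g, Subgroup.mem_comap.1 g.2⟩ =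
      k • u.toFun (π g, π h) := ht ⟨π g, Subgroup.mem_comap.1 g.2⟩ ⟨π h, Subgroup.mem_comap.1 h.2⟩
  rw [Pi.sub_apply, eq_sub_iff_add_eq] at h1
  show (g : G) • _ - _ + _ = k • carryN χ x ((g : G), (h : G))
  rw [← h1, h2]
  simp only [smul_add, smul_sub, map_add, map_sub, map_zsmul, Subgroup.coe_mul, map_mul,
    smul_comm _ k, hinv]
  rw [← map_zsmul ι k (u.toFun _), ← h3]
  simp only [map_add, map_sub]
  simp only [MulMemClass.mk_mul_mk]
  abel

end Fermat.Agent.CFT.Formation
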