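import Fermat.Agent.CFT.Idele.PsiNorm
import Fermat.Agent.CFT.Duality.Incl
import Fermat.Agent.CFT.Local.Unramified

/-!
# The character of rational idele classes, and a norm of full order

`Psi a : C ℚ → ℤ/n` descends `psi a`; it kills norms from the cyclic field of `a`, and for `L`
unramified at the auxiliary prime some norm from `C L` has value one.
-/

set_option autoImplicit false
set_option linter.unusedSectionVars false
set_option linter.style.haveILetI false

noncomputable section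

namespace Fermat.Agent.CFT.Formation

open ExtCitation Fermat.Agent.Arith IntermediateField Fermat.Agent.CFT.Local Fermat.Agent.CFT.Idele
open Fermat.Agent.CFT.Duality

local instance factPrimePsi (q : Nat.Primes) : Fact (q : ℕ).Prime := ⟨q.2⟩

/-- The rationals inside `ℚ̄` are normal over `ℚ`. -/
instance normalBotQ : Normal ℚ (⊥ : IntermediateField ℚ QBar) :=
  Normal.of_algEquiv (IntermediateField.botEquiv ℚ QBar).symm

variable {n : ℕ} (a : Aux n) (hn : Odd n)

/-- The character on rational idele classes. -/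
def Psi : C (⊥ : IntermediateField ℚ QBar) →+ ZMod n :=
  AddMonoidHom.mk' (fun c => Multiplicative.toAdd
      (QuotientGroup.lift (prinL (⊥ : IntermediateField ℚ QBar)).range (psi a)
        (fun f hf => by
          obtain ⟨x, rfl⟩ := hf
          exact psi_prin a hn _) c.toMul))
    fun c d => by rw [toMul_add, map_mul, toAdd_mul]

theorem Psi_proj (P : J (⊥ : IntermediateField ℚ QBar)) :
    Psi a hn (proj _ P) = Multiplicative.toAdd (psi a P.toMul) := rfl

/-- Norms from the cyclic field have value zero. -/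
theorem Psi_norm (x : C (⊥ : IntermediateField ℚ QBar))
    (z : C a.fixedChi)
    (h : inclC (bot_le : ⊥ ≤ a.fixedChi) x = ∑ σ : a.fixedChi ≃ₐ[ℚ] a.fixedChi, σ • z) :
    Psi a hn x = 0 := by
  obtain ⟨y, rfl⟩ := proj_surjective a.fixedChi z
  obtain ⟨P, hP⟩ := exists_inclJ_eq (bot_le : ⊥ ≤ a.fixedChi)
    (x := ∑ σ : a.fixedChi ≃ₐ[ℚ] a.fixedChi, σ • y) fun τ _ => by
      rw [Finset.smul_sum]
      exact Fintype.sum_equiv (Equiv.mulLeft τ) _ _ fun σ => smul_smul τ σ y
  have hx : x = proj (⊥ : IntermediateField ℚ QBar) P :=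
    inclC_injective (bot_le : ⊥ ≤ a.fixedChi) (by
    rw [inclC_proj, hP, h, map_sum]
    exact Finset.sum_congr rfl fun σ _ => (proj_smul a.fixedChi σ y).symm)
  rw [hx, Psi_proj, psi_norm a y.toMul P.toMul, toAdd_one]
  have e := congrArg (fun v : J a.fixedChi => ((v.toMul : idl a.fixedChi) : PreIdele)) hP
  refine e.trans ?_
  simp only [toMul_sum]
  exact congrArg Subtype.val (Finset.prod_congr rfl fun σ _ => rfl)

/-- The values of a local idele over the distinguished place. -/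
theorem prod_val_locIdl (L : IntermediateField ℚ QBar) [FiniteDimensional ℚ L] [Normal ℚ L]
    (q : Nat.Primes)
    (y : (E L q)ˣ) :
    ∏ σ : L ≃ₐ[ℚ] L, val (locIdl q y) q σ =
      ∏ t : E L q ≃ₐ[ℚ_[(q : ℕ)]] E L q, t • y := by
  classical
  refine (Fintype.prod_of_injective (fun t => toGlobal (q : ℕ) L t)
    (toGlobal_injective _ L) (fun t => t • y) (fun σ => val (locIdl q y) q σ) ?_ ?_).symm
  · intro σ hσ
    exact val_locIdl_of_notMem q y hσ
  · intro t
    exact (val_locIdl_self q y t).symm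

/-- For `L` unramified at the auxiliary prime some norm from `C L` has value one. -/
theorem exists_Psi_norm_eq_one (L : IntermediateField ℚ QBar) [FiniteDimensional ℚ L] [Normal ℚ L]
    (hL : inertia (E L a.q) = ⊥) :
    ∃ (x : C (⊥ : IntermediateField ℚ QBar)) (y : C L),
      Psi a hn x = 1 ∧ inclC (bot_le : ⊥ ≤ L) x = ∑ σ : L ≃ₐ[ℚ] L, σ • y := by
  classical
  haveI : IsGalois ℚ_[(a.q : ℕ)] (E L a.q) := ⟨⟩
  obtain ⟨w, hw⟩ := a.surj (Multiplicative.ofAdd 1)
  set k : ℕ := (w : ZMod (a.q : ℕ)).val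
  have hkz : PadicInt.toZMod (k : ℤ_[(a.q : ℕ)]) = (w : ZMod (a.q : ℕ)) := by
    rw [map_natCast, ZMod.natCast_zmod_val]
  have hku : IsUnit (k : ℤ_[(a.q : ℕ)]) := by
    rw [← IsLocalRing.notMem_maximalIdeal, ← PadicInt.ker_toZMod, RingHom.mem_ker, hkz]
    exact w.ne_zero
  set u : ℤ_[(a.q : ℕ)]ˣ := hku.unit
  set uE : (E L a.q)ˣ := Units.map
    (algebraMap ℚ_[(a.q : ℕ)] (E L a.q)).toMonoidHom
    (Units.map PadicInt.Coe.ringHom.toMonoidHom u)
  have huE : ‖(uE : E L a.q)‖ = 1 := by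
    show ‖algebraMap ℚ_[(a.q : ℕ)] (E L a.q) _‖ = 1
    rw [norm_algebraMap']
    exact PadicInt.isUnit_iff.1 u.isUnit
  set G := E L a.q ≃ₐ[ℚ_[(a.q : ℕ)]] E L a.q
  obtain ⟨y₀, hy₀⟩ := (exists_normHom_eq_iff (⊤ : Subgroup G) (by rw [hL, inf_bot_eq])
    (x := uE) fun h => Units.ext ((h : G).commutes _)).2 (by
      rw [ordZ, (ord_eq_one_iff _).2 ((mem_unitGroup _).2 huE), toAdd_one]
      exact dvd_zero _)
  set S : J L := ∑ σ : L ≃ₐ[ℚ] L, σ • loc' L a.q (Additive.ofMul y₀)
  obtain ⟨P, hP⟩ := exists_inclJ_eq (bot_le : ⊥ ≤ L) (x := S) fun τ _ => by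
    rw [Finset.smul_sum]
    exact Fintype.sum_equiv (Equiv.mulLeft τ) _ _ fun σ => smul_smul τ σ _
  have hS : ∀ q' τ, val S.toMul q' τ =
      ∏ σ : L ≃ₐ[ℚ] L, val (locIdl a.q y₀) q' σ := fun q' τ => by
    simp only [S, toMul_sum]
    rw [val_prod]
    exact Fintype.prod_equiv (Equiv.mulLeft τ) _ _ fun σ => val_smul σ _ q' τ
  have hq : val S.toMul a.q 1 = uE := by
    rw [hS, prod_val_locIdl L a.q y₀, ← hy₀]
    exact Fintype.prod_equiv (Subgroup.topEquiv (G := G)).toEquiv.symm _ _ fun t => rfl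
  have hne : ∀ l, l ≠ a.q → val S.toMul l 1 = 1 := fun l hl => by
    rw [hS]
    exact Finset.prod_eq_one fun σ _ => val_locIdl_of_ne a.q y₀ hl σ
  have hcoe : ∀ l, (((val S.toMul l 1 : (E L l)ˣ) : E L l) : Ω l) =
      algebraMap ℚ_[(l : ℕ)] (Ω l) (botVal l P.toMul : ℚ_[(l : ℕ)]) := fun l => by
    rw [coe_val _ l (map_one (res L)), botVal_spec l P.toMul 1, ← hP]
    rfl
  refine ⟨proj _ P, proj L (loc' L a.q (Additive.ofMul y₀)), ?_, ?_⟩
  · rw [Psi_proj, psi_of_units a fun l hl => by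
        rw [← norm_algebraMap' (Ω l), ← hcoe l, hne l hl]; simp,
      resUnit_eq (j := 0) (u := u) (by
        refine (algebraMap ℚ_[(a.q : ℕ)] (Ω a.q)).injective ?_
        rw [← hcoe a.q, hq, zpow_zero, one_mul]
        rfl),
      show Units.map (PadicInt.toZMod : ℤ_[(a.q : ℕ)] →+* ZMod (a.q : ℕ)).toMonoidHom u = w from
        Units.ext hkz, hw, toAdd_ofAdd]
  · rw [inclC_proj, hP, map_sum]
    exact Finset.sum_congr rfl fun σ _ => proj_smul L σ _

end Fermat.Agent.CFT.Formation
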