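import Fermat.Agent.CFT.Formation.Descend
import Fermat.Agent.CFT.Formation.Psi
import Fermat.Agent.CFT.Idele.LocalTriv
import Fermat.Agent.CFT.Idele.SecondIneq

/-!
# The global fundamental class

For a finite normal `L` containing `ζ_p` the idele classes of `L` form a class formation at `p`.
The class is the carry class of an auxiliary cyclic field, descended from the compositum.
-/

set_option autoImplicit false
set_option linter.unusedSectionVars false
set_option linter.style.haveILetI false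

noncomputable section

namespace Fermat.Agent.CFT.Formation

open ExtCitation Fermat.Agent.Arith IntermediateField Fermat.Agent.CFT.Local Fermat.Agent.CFT.Idele
open Fermat.Agent.CFT.Duality groupCohomology

local instance factPrimeGlobalClass (q : Nat.Primes) : Fact (q : ℕ).Prime := ⟨q.2⟩

theorem inclC_trans' {K L L' : IntermediateField ℚ QBar} [FiniteDimensional ℚ K] [Normal ℚ K]
    [FiniteDimensional ℚ L] [Normal ℚ L] [FiniteDimensional ℚ L'] [Normal ℚ L'] (h : K ≤ L)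
    (h' : L ≤ L') (x : C K) : inclC h' (inclC h x) = inclC (h.trans h') x := by
  obtain ⟨x, rfl⟩ := proj_surjective K x
  rfl

/-- The rational idele classes are invariant. -/
theorem smul_inclC_bot (M : IntermediateField ℚ QBar) [FiniteDimensional ℚ M] [Normal ℚ M]
    (σ : M ≃ₐ[ℚ] M) (x : C (⊥ : IntermediateField ℚ QBar)) :
    σ • inclC (bot_le : ⊥ ≤ M) x = inclC (bot_le : ⊥ ≤ M) x := by
  rw [smul_inclC]
  have h1 : levelRes (bot_le : ⊥ ≤ M) σ = 1 := AlgEquiv.ext fun z => by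
    obtain ⟨r, hr⟩ := IntermediateField.mem_bot.1 z.2
    rw [show z = algebraMap ℚ (⊥ : IntermediateField ℚ QBar) r from Subtype.ext hr.symm,
      AlgEquiv.commutes, AlgEquiv.commutes]
  rw [h1, one_smul]

section psiM

variable {n : ℕ} (a : Aux n) (hn : Odd n) (M : IntermediateField ℚ QBar) [FiniteDimensional ℚ M]
  [Normal ℚ M]

open Classical in
/-- The character on invariant classes of `M`. -/
def psiM (c : C M) : ZMod n :=
  if h : ∀ σ : M ≃ₐ[ℚ] M, σ • c = c then
    Psi a hn (exists_inclC_eq (bot_le : ⊥ ≤ M) (c := c) fun σ _ => h σ).choose else 0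

theorem psiM_incl (x : C (⊥ : IntermediateField ℚ QBar)) :
    psiM a hn M (inclC (bot_le : ⊥ ≤ M) x) = Psi a hn x := by
  unfold psiM
  rw [dif_pos fun σ => smul_inclC_bot M σ x]
  congr 1
  exact inclC_injective _ (exists_inclC_eq (bot_le : ⊥ ≤ M) (c := inclC (bot_le : ⊥ ≤ M) x)
    fun σ _ => smul_inclC_bot M σ x).choose_spec

theorem psiM_add (x y : C M) (hx : ∀ g : M ≃ₐ[ℚ] M, g • x = x) (hy : ∀ g : M ≃ₐ[ℚ] M, g • y = y) :
    psiM a hn M (x + y) = psiM a hn M x + psiM a hn M y := by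
  obtain ⟨x, rfl⟩ := exists_inclC_eq (bot_le : ⊥ ≤ M) (c := x) fun σ _ => hx σ
  obtain ⟨y, rfl⟩ := exists_inclC_eq (bot_le : ⊥ ≤ M) (c := y) fun σ _ => hy σ
  rw [← map_add, psiM_incl, psiM_incl, psiM_incl, map_add]

theorem psiM_norm [NeZero n] (hLc : a.fixedChi ≤ M) {γ : M ≃ₐ[ℚ] M}
    (hγ : a.galEquiv (levelRes hLc γ) = Multiplicative.ofAdd 1) (z : C M)
    (hz : ∀ g ∈ (levelRes hLc).ker, g • z = z) :
    psiM a hn M (∑ i ∈ Finset.range n, γ ^ i • z) = 0 := by
  obtain ⟨z, rfl⟩ := exists_inclC_eq hLc (c := z) hz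
  by_cases hfix : ∀ σ : M ≃ₐ[ℚ] M,
      σ • (∑ i ∈ Finset.range n, γ ^ i • inclC hLc z) = ∑ i ∈ Finset.range n, γ ^ i • inclC hLc z
  swap
  · unfold psiM; rw [dif_neg hfix]
  obtain ⟨x, hx⟩ := exists_inclC_eq (bot_le : ⊥ ≤ M) (c := _) fun σ _ => hfix σ
  rw [← hx, psiM_incl]
  refine Psi_norm a hn x z (inclC_injective hLc ?_)
  rw [inclC_trans' (bot_le : ⊥ ≤ a.fixedChi) hLc, hx, map_sum, ← Fin.sum_univ_eq_sum_range]
  have hbij : Function.Bijective fun i : Fin n => levelRes hLc γ ^ (i : ℕ) := by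
    refine (Fintype.bijective_iff_injective_and_card _).2 ⟨fun i j e => ?_, ?_⟩
    · have e2 := congrArg a.galEquiv e
      simp only [map_pow] at e2
      rw [hγ, ← ofAdd_nsmul, ← ofAdd_nsmul, Multiplicative.ofAdd.injective.eq_iff, nsmul_one,
        nsmul_one] at e2
      have e3 := congrArg ZMod.val e2
      rw [ZMod.val_natCast, ZMod.val_natCast, Nat.mod_eq_of_lt i.2, Nat.mod_eq_of_lt j.2] at e3
      exact Fin.ext e3
    · rw [Fintype.card_fin, ← Nat.card_eq_fintype_card, Nat.card_congr a.galEquiv.toEquiv,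
        Nat.card_congr Multiplicative.toAdd, Nat.card_zmod]
  refine Fintype.sum_bijective _ hbij _ _ fun i => ?_
  rw [smul_inclC, map_pow]

variable {L : IntermediateField ℚ QBar} [FiniteDimensional ℚ L] [Normal ℚ L]

/-- The character of the compositum. -/
def chiM (hLc : a.fixedChi ≤ M) : (M ≃ₐ[ℚ] M) →* Multiplicative (ZMod n) :=
  (a.galEquiv : (a.fixedChi ≃ₐ[ℚ] a.fixedChi) →* Multiplicative (ZMod n)).comp (levelRes hLc)

theorem chiM_ker (hLc : a.fixedChi ≤ M) : (chiM a M hLc).ker = (levelRes hLc).ker :=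
  SetLike.ext fun σ => by
    rw [MonoidHom.mem_ker, MonoidHom.mem_ker]
    exact MulEquiv.map_eq_one_iff a.galEquiv

theorem compositum_sup (hL : L ≤ M) (hLc : a.fixedChi ≤ M) (hM : M = L ⊔ a.fixedChi)
    (hLq : inertia (E L a.q) = ⊥) :
    ∃ γ, Compositum (levelRes hL) (chiM a M hLc) γ := by
  obtain ⟨g₁, hg₁, hg₁c⟩ := a.exists_inertia (Multiplicative.ofAdd 1)
  have hχres : ∀ g : GQ, chiM a M hLc (res M g) = a.chi g := fun g => by
    show a.galEquiv (levelRes hLc (res M g)) = _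
    rw [levelRes_res, a.galEquiv_res]
  refine ⟨res M g₁, levelRes_surjective hL, fun σ h1 h2 => ?_, ?_, (hχres g₁).trans hg₁c⟩
  · obtain ⟨g, rfl⟩ := AlgEquiv.restrictNormalHom_surjective (K₁ := M) QBar σ
    rw [levelRes_res] at h1
    have h1' : g ∈ L.fixingSubgroup := (res_eq_one_iff L).1 h1
    have h2' : g ∈ a.fixedChi.fixingSubgroup := by
      rw [a.fixingSubgroup_fixedChi, MonoidHom.mem_ker, ← hχres]; exact h2
    refine (res_eq_one_iff M).2 ?_
    rw [show M.fixingSubgroup = L.fixingSubgroup ⊓ a.fixedChi.fixingSubgroup from by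
      rw [hM, IntermediateField.fixingSubgroup_sup]]
    exact ⟨h1', h2'⟩
  · rw [levelRes_res, res_eq_one_iff, IntermediateField.mem_fixingSubgroup_iff]
    exact fun x hx => (inertia_eq_bot_iff (a.q : ℕ) L).1 hLq g₁ hg₁ ⟨x, hx⟩

theorem exists_sum_value_one (hL : L ≤ M) (hLc : a.fixedChi ≤ M) {γ : M ≃ₐ[ℚ] M}
    (hc : Compositum (levelRes hL) (chiM a M hLc) γ) (hLq : inertia (E L a.q) = ⊥)
    [Fintype (chiM a M hLc).ker] [NeZero n] :
    ∃ (x : C (⊥ : IntermediateField ℚ QBar)) (y : C M), Psi a hn x = 1 ∧ γ • y = y ∧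
      normSum (chiM a M hLc).ker (C M) y = inclC (bot_le : ⊥ ≤ M) x := by
  obtain ⟨x₀, y₀, hx₀, hy₀⟩ := exists_Psi_norm_eq_one a hn L hLq
  refine ⟨x₀, inclC hL y₀, hx₀, ?_, ?_⟩
  · rw [smul_inclC, hc.gen_ker, one_smul]
  · rw [← inclC_trans' (bot_le : ⊥ ≤ L) hL, hy₀, map_sum, normSum]
    refine Fintype.sum_equiv hc.kerEquiv.toEquiv _ _ fun g => ?_
    show (g : M ≃ₐ[ℚ] M) • inclC hL y₀ = inclC hL (levelRes hL g • y₀)
    rw [smul_inclC]

end psiM

variable {p : ℕ} [hp : Fact p.Prime]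

/-- The idele classes of `L ∋ ζ_p` form a class formation at `p`. -/
theorem exists_classFormation (hp2 : p ≠ 2) (L : IntermediateField ℚ QBar) [FiniteDimensional ℚ L]
    [Normal ℚ L] {ζ : L} (hζ : IsPrimitiveRoot ζ p) :
    ∃ u : NormCocycle (L ≃ₐ[ℚ] L) (C L), IsClassFormation p u := by
  classical
  have hA := stepAxioms L hp2 hζ
  rcases hm : (Nat.card (L ≃ₐ[ℚ] L)).factorization p with _ | m
  · refine ⟨⟨0, fun _ _ _ => by simp, fun _ => rfl⟩, hA.isClassFormation _ fun P k _ => ?_⟩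
    rw [P.card_eq_multiplicity, hm, pow_zero, Nat.cast_one]
    exact one_dvd k
  obtain ⟨n, hn⟩ : ∃ n, n = p ^ (m + 1) := ⟨_, rfl⟩
  haveI : NeZero n := ⟨by rw [hn]; exact pow_ne_zero _ hp.out.ne_zero⟩
  have hodd : Odd n := hn ▸ (hp.out.odd_of_ne_two hp2).pow
  obtain ⟨T, hT⟩ := exists_finset_unramified (L := L)
  obtain ⟨a, ha⟩ := exists_aux n T
  have hLq : inertia (E L a.q) = ⊥ := hT _ ha
  haveI : Normal ℚ (L ⊔ a.fixedChi : IntermediateField ℚ QBar) :=
    @IntermediateField.normal_sup ℚ QBar _ _ _ L a.fixedChi ‹Normal ℚ L›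
      (inferInstance : Normal ℚ a.fixedChi)
  haveI : FiniteDimensional ℚ (L ⊔ a.fixedChi : IntermediateField ℚ QBar) :=
    IntermediateField.finiteDimensional_sup L a.fixedChi
  obtain ⟨γ, hc⟩ := compositum_sup a (L ⊔ a.fixedChi) (L := L) le_sup_left le_sup_right rfl hLq
  obtain ⟨x₀, y, hx₀, hy, hyN⟩ :=
    exists_sum_value_one a hodd (L ⊔ a.fixedChi) (L := L) le_sup_left le_sup_right hc hLq
  have hζM : IsPrimitiveRoot
      (⟨(ζ : QBar), (le_sup_left : L ≤ L ⊔ a.fixedChi) ζ.2⟩ : (L ⊔ a.fixedChi : IntermediateField ℚ QBar)) p :=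
    IsPrimitiveRoot.of_map_of_injective (f := (L ⊔ a.fixedChi : IntermediateField ℚ QBar).val)
      (hζ.map_of_injective (f := L.val) L.val.injective)
      (L ⊔ a.fixedChi : IntermediateField ℚ QBar).val.injective
  exact hc.exists_classFormation hn hm (stepAxioms _ hp2 hζM) hA
    (inclC le_sup_left) (inclC_injective _) (fun g z => smul_inclC _ g z)
    (fun z hz => exists_inclC_eq _ fun σ hσ => hz ⟨σ, hσ⟩)
    (psiM a hodd (L ⊔ a.fixedChi)) (psiM_add a hodd _)
    (fun z hz => psiM_norm a hodd _ le_sup_right hc.gen_chi z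
      fun g hg => hz g (by rw [chiM_ker]; exact hg))
    (x := inclC bot_le x₀) (fun g => smul_inclC_bot _ g x₀)
    ((psiM_incl a hodd _ x₀).trans hx₀) ⟨y, hy, by rw [hyN, psiM_incl, hx₀]⟩

end Fermat.Agent.CFT.Formation
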