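import Fermat.Agent.CFT.Formation.SplitCount

/-!
# Local norms and global norms in a Kummer extension

If `b` is not a local `p`-th power at a place, some local element at that place is not in
`Kˣ` times the norms from `K(b ^ (1/p))`.
-/

set_option autoImplicit false
set_option linter.unusedSectionVars false
set_option linter.style.haveILetI false

noncomputable section

namespace Fermat.Agent.CFT.Formation

open ExtCitation Fermat.Agent.Arith IntermediateField Fermat.Agent.CFT.Idele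

local instance factPrimeLocalGlobal (q : Nat.Primes) : Fact (q : ℕ).Prime := ⟨q.2⟩

variable {p : ℕ} [hp : Fact p.Prime] {K : IntermediateField ℚ QBar} {ζ : QBar}

/-- Maps separating lines do not decrease dimension. -/
theorem natCard_le_of_lines {k V W : Type*} [Field k] [AddCommGroup V] [Module k V]
    [AddCommGroup W] [Module k W] [Finite V] [Finite W] (F : V → W) (A : Submodule k V)
    (B : Submodule k W) (hmem : ∀ a ∈ A, a ≠ 0 → F a ∈ B ∧ F a ≠ 0)
    (hinj : ∀ a ∈ A, a ≠ 0 → ∀ a' ∈ A, a' ≠ 0 → F a ∈ (k ∙ F a') → a ∈ (k ∙ a')) :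
    Nat.card A ≤ Nat.card B := by
  classical
  haveI : Module.Finite k A := Module.Finite.of_finite
  haveI : Module.Finite k B := Module.Finite.of_finite
  by_contra hlt
  have hr : Module.finrank k B < Module.finrank k A := by
    refine lt_of_not_ge fun hge => hlt ?_
    obtain ⟨f, hf⟩ := finrank_le_iff_exists_linearMap.mp hge
    exact Nat.card_le_card_of_injective f hf
  obtain ⟨A', hA'A, hA'r⟩ : ∃ A' : Submodule k V, A' ≤ A ∧
      Module.finrank k A' = Module.finrank k B := by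
    obtain ⟨f, hf⟩ := exists_linearIndependent_of_le_finrank (R := k) (M := A) hr.le
    refine ⟨(Submodule.span k (Set.range f)).map A.subtype, Submodule.map_subtype_le A _, ?_⟩
    rw [Submodule.finrank_map_subtype_eq, finrank_span_eq_card hf, Fintype.card_fin]
  obtain ⟨x, hxA, hxA'⟩ := SetLike.exists_of_lt (lt_of_le_of_ne hA'A fun e => by
    subst e; omega)
  have hx0 : x ≠ 0 := fun e => hxA' (e ▸ zero_mem _)
  obtain ⟨a, ha, ha0, hax⟩ := exists_mem_span_of_lines F A' B hA'r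
    (fun a ha => hmem a (hA'A ha)) (fun a ha h a' ha' => hinj a (hA'A ha) h a' (hA'A ha'))
    (F x) (hmem x hxA hx0).1 (hmem x hxA hx0).2
  obtain ⟨c, hc⟩ := Submodule.mem_span_singleton.mp (hinj a (hA'A ha) ha0 x hxA hx0 hax)
  have hc0 : c ≠ 0 := fun e => ha0 (by rw [← hc, e, zero_smul])
  exact hxA' (by rw [← inv_smul_smul₀ hc0 x, hc]; exact A'.smul_mem _ ha)

variable [FiniteDimensional ℚ K] (hp2 : p ≠ 2) (hζ : IsPrimitiveRoot ζ p) (hζK : ζ ∈ K)
  {S : Finset Nat.Primes} (hS : GoodSet p S K)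

/-- The values away from one place over `q` are `p`-th powers. -/
def offPlace (p : ℕ) (S : Finset Nat.Primes) (K : IntermediateField ℚ QBar) (q : Nat.Primes)
    (r : GQ) : Subgroup PreIdele where
  carrier := {f | f ∈ unitsOutside S K ∧ ∀ q' ∈ S, ∀ h, placeRep q' K h = h → (q' = q → h ≠ r) →
    ∃ y ∈ fieldAt q' K h, y ^ p = (f q' h : (Ω q')ˣ)}
  one_mem' := ⟨one_mem _, fun _ _ _ _ _ => ⟨1, one_mem _, by simp⟩⟩
  mul_mem' {f f'} hf hf' := ⟨mul_mem hf.1 hf'.1, fun q' hq h hh hne => by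
    obtain ⟨y, hy, e⟩ := hf.2 q' hq h hh hne
    obtain ⟨y', hy', e'⟩ := hf'.2 q' hq h hh hne
    exact ⟨y * y', mul_mem hy hy', by simp [mul_pow, e, e']⟩⟩
  inv_mem' {f} hf := ⟨inv_mem hf.1, fun q' hq h hh hne => by
    obtain ⟨y, hy, e⟩ := hf.2 q' hq h hh hne
    exact ⟨y⁻¹, inv_mem hy, by simp [inv_pow, e]⟩⟩

/-- The value at one place over `q` is a `p`-th power. -/
def atPlace (p : ℕ) (S : Finset Nat.Primes) (K : IntermediateField ℚ QBar) (q : Nat.Primes)
    (r : GQ) : Subgroup PreIdele where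
  carrier := {f | f ∈ unitsOutside S K ∧ ∃ y ∈ fieldAt q K r, y ^ p = (f q r : (Ω q)ˣ)}
  one_mem' := ⟨one_mem _, 1, one_mem _, by simp⟩
  mul_mem' {f f'} hf hf' := ⟨mul_mem hf.1 hf'.1, by
    obtain ⟨y, hy, e⟩ := hf.2
    obtain ⟨y', hy', e'⟩ := hf'.2
    exact ⟨y * y', mul_mem hy hy', by simp [mul_pow, e, e']⟩⟩
  inv_mem' {f} hf := ⟨inv_mem hf.1, by
    obtain ⟨y, hy, e⟩ := hf.2
    exact ⟨y⁻¹, inv_mem hy, by simp [inv_pow, e]⟩⟩

theorem singleAt_mem_offPlace {q : Nat.Primes} (hq : q ∈ S) {r : GQ} {u : (Ω q)ˣ}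
    (hu : (u : Ω q) ∈ fieldAt q K r) : singleAt K q r u ∈ offPlace p S K q r :=
  ⟨mem_unitsOutside_of_rep (singleAt_mem hu) fun q' hq' h hh => by
    rw [singleAt_other hu hh fun e => absurd hq (e ▸ hq'), Units.val_one, norm_one],
   fun q' _ h hh hne => ⟨1, one_mem _, by rw [singleAt_other hu hh hne, Units.val_one, one_pow]⟩⟩

theorem sup_places {q : Nat.Primes} (hq : q ∈ S) {r : GQ} (hr : placeRep q K r = r) :
    offPlace p S K q r ⊔ atPlace p S K q r = unitsOutside S K ∧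
      offPlace p S K q r ⊓ atPlace p S K q r = powAt p S K := by
  refine ⟨le_antisymm (sup_le (fun f hf => hf.1) fun f hf => hf.1) fun f hf => ?_,
    le_antisymm (fun f hf => ⟨hf.1.1, fun q' hq' h hh => ?_⟩)
      fun f hf => ⟨⟨hf.1, fun q' hq' h hh _ => hf.2 q' hq' h hh⟩, hf.1, hf.2 q hq r hr⟩⟩
  · have hu := value_mem_fieldAt hf.1 r (q := q)
    have h1 := singleAt_mem_offPlace (p := p) hq hu
    rw [← mul_inv_cancel_left (singleAt K q r (f q r)) f]
    refine Subgroup.mul_mem_sup h1 ⟨mul_mem (inv_mem h1.1) hf, 1, one_mem _, ?_⟩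
    rw [Pi.mul_apply, Pi.mul_apply, Pi.inv_apply, Pi.inv_apply, singleAt_self hu hr, inv_mul_cancel,
      Units.val_one, one_pow]
  · by_cases hne : q' = q → h ≠ r
    · exact hf.1.2 q' hq' h hh hne
    · push Not at hne
      obtain ⟨rfl, rfl⟩ := hne
      exact hf.2.2

include hp2 hζ hζK hS in
/-- The norm group of `b` does not contain a place where `b` does not split. -/
theorem exists_notMem_normSub_of_good {x : sUnits S K} {g₀ : GQ} (hg₀ : g₀ ∈ K.fixingSubgroup)
    (hkum : kum hζ g₀ ((x : QBarˣ) : QBar) = 1) (hx : modClass p x ≠ 0) {q : Nat.Primes} (hq : q ∈ S)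
    {r : GQ} (hr : placeRep q K r = r)
    (hns : ¬ ∃ y ∈ fieldAt q K r, y ^ p = emb q (r ((x : QBarˣ) : QBar))) :
    ∃ u : (Ω q)ˣ, (u : Ω q) ∈ fieldAt q K r ∧
      singleAt K q r u ∉ normSub p K ((x : QBarˣ) : QBar) g₀ := by
  classical
  by_contra hall
  push Not at hall
  set V := ModP p (sUnits S K)
  set Q := ModQ p S K
  haveI : Finite V := Nat.finite_of_card_ne_zero hS.card
  have hcardQ : Nat.card Q = Nat.card V := card_modQ hp2 hζ hζK hS
  haveI : Finite Q := Nat.finite_of_card_ne_zero (hcardQ.trans_ne hS.card)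
  haveI : Module.Finite (ZMod p) Q := Module.Finite.of_finite
  haveI : Finite (Module.Dual (ZMod p) Q) := Module.finite_of_finite (ZMod p)
  have hex : ∀ v : V, v ≠ 0 → ∃ (y : sUnits S K) (g : GQ) (l : Module.Dual (ZMod p) Q),
      modClass p y = v ∧ g ∈ K.fixingSubgroup ∧ kum hζ g ((y : QBarˣ) : QBar) = 1 ∧ l ≠ 0 ∧
      (∀ f : idl K, l (qClass p S f) = 0 ↔ (f : PreIdele) ∈ normSub p K ((y : QBarˣ) : QBar) g) ∧
      (v = modClass p x → y = x ∧ g = g₀) := by
    intro v hv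
    by_cases hvx : v = modClass p x
    swap
    · obtain ⟨y, g, l, h1, h2, h3, h4, h5⟩ := exists_kumNormFunctional hp2 hζ hζK hS hv
      exact ⟨y, g, l, h1, h2, h3, h4, h5, fun e => absurd e hvx⟩
    have hle : prinSub K ⊔ powAt p S K ≤ normSub p K ((x : QBarˣ) : QBar) g₀ :=
      powAt_le_normSub hp2 hζ hζK (sUnits_le S K x.2) (Units.ne_zero _) hg₀ hkum hS.mem
        (mem_sUnits.mp x.2).2
    have hidx := relIndex_normSub hp2 hζ hζK (sUnits_le S K x.2) (Units.ne_zero _) hg₀ hkum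
      (rootP_notMem hζ hζK hx)
    obtain ⟨l, hl⟩ := exists_dual_iff hS hle hidx
    refine ⟨x, g₀, l, hvx.symm, hg₀, hkum, fun h0 => hp.out.ne_one ?_, hl, fun _ => ⟨rfl, rfl⟩⟩
    rw [← hidx, Subgroup.relIndex_eq_one]
    exact fun f hf => (hl ⟨f, hf⟩).mp (by rw [h0]; rfl)
  choose! X G F hX hG hkumG hF0 hF hsel using hex
  have hXb : X (modClass p x) = x ∧ G (modClass p x) = g₀ := hsel _ hx rfl
  have hinj : ∀ v : V, v ≠ 0 → ∀ v' : V, v' ≠ 0 → F v ∈ (ZMod p ∙ F v') →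
      v ∈ (ZMod p ∙ v') := fun v hv v' hv' hmem => by
    have h := mem_span_of_kumFunctional hp2 hζ hζK hS (x := X v') (x' := X v) (by rwa [hX v' hv'])
      (hG v' hv') (hkumG v' hv') (hG v hv) (hkumG v hv) (hF0 v hv) (hF v' hv') (hF v hv) hmem
    rwa [hX v hv, hX v' hv'] at h
  obtain ⟨hsup, hinf⟩ := sup_places (p := p) hq hr
  set D₁ := offPlace p S K q r
  set D₂ := atPlace p S K q r
  have hB1 : powAt p S K ≤ D₁ := hinf ▸ inf_le_left
  have hB2 : powAt p S K ≤ D₂ := hinf ▸ inf_le_right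
  have hU1 : D₁ ≤ unitsOutside S K := fun f hf => hf.1
  have hU2 : D₂ ≤ unitsOutside S K := fun f hf => hf.1
  -- functionals killing the image of `D`
  have hcond : ∀ (v : V), v ≠ 0 → ∀ f ∈ unitsOutside S K,
      (∀ q' ∈ S, ∀ h, placeRep q' K h = h → (∃ y ∈ fieldAt q' K h,
          y ^ p = emb q' (h ((X v : QBarˣ) : QBar))) ∨
        ∃ y ∈ fieldAt q' K h, y ^ p = ((f q' h : (Ω q')ˣ) : Ω q')) →
      f ∈ normSub p K ((X v : QBarˣ) : QBar) (G v) := fun v hv f hf h => by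
    refine mem_normSub_of_cond hp2 hζ hζK (sUnits_le S K (X v).2) (Units.ne_zero _) (hG v hv)
      (hkumG v hv) hf.1 fun q' h' hh => ?_
    by_cases hq' : q' ∈ S
    · exact (h q' hq' h' hh).elim Or.inl (fun hy => Or.inr (Or.inl hy))
    · exact locNormCond_of_units hS.mem hq' (hf.2 q' hq' h') ((mem_sUnits.mp (X v).2).2 q' hq' h')
  have hclass : ∀ (D : Subgroup PreIdele), powAt p S K ≤ D → ∀ v ∈ imV p K S D, v ≠ 0 →
      ∀ hv : v ≠ 0, prin (X v : QBarˣ) ∈ D := fun D hD v hv _ hv0 => by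
    obtain ⟨y, hy, hyD⟩ := exists_of_mem_imV hv
    obtain ⟨z, hz⟩ := (modClass_eq_zero_iff (y⁻¹ * X v)).mp (by
      rw [modClass_mul, show modClass p y⁻¹ = -modClass p y from rfl, hy, hX v hv0,
        neg_add_cancel])
    rw [show (X v : QBarˣ) = (y : QBarˣ) * (z : QBarˣ) ^ p by
      rw [← SubmonoidClass.coe_pow, hz, Subgroup.coe_mul, InvMemClass.coe_inv, mul_inv_cancel_left],
      map_mul, map_pow]
    exact mul_mem hyD (hD (prin_pow_mem_powAt z))
  have key : ∀ (D D' : Subgroup PreIdele), powAt p S K ≤ D →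
      D' ≤ unitsOutside S K → (∀ c : QBarˣ, prin c ∈ D → ∀ f ∈ D', ∀ q' ∈ S, ∀ h,
        placeRep q' K h = h → (∃ y ∈ fieldAt q' K h, y ^ p = emb q' (h (c : QBar))) ∨
          ∃ y ∈ fieldAt q' K h, y ^ p = ((f q' h : (Ω q')ˣ) : Ω q')) →
      ∀ v ∈ imV p K S D, v ≠ 0 → F v ∈ (imQ p K S D').dualAnnihilator ∧ F v ≠ 0 := by
    intro D D' hD hD' hsp v hv hv0
    refine ⟨(Submodule.mem_dualAnnihilator _).mpr ?_, hF0 v hv0⟩
    rintro _ ⟨f, hf, rfl⟩
    exact (hF v hv0 f).mpr (hcond v hv0 f (hD' hf) (hsp _ (hclass D hD v hv hv0 hv0) f hf))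
  have k1 := key D₂ D₁ hB2 hU1 fun c hc f hf q' hq' h hh => by
    by_cases hne : q' = q → h ≠ r
    · exact Or.inr (hf.2 q' hq' h hh hne)
    · push Not at hne
      obtain ⟨rfl, rfl⟩ := hne
      obtain ⟨y, hy, e⟩ := hc.2
      exact Or.inl ⟨y, hy, e.trans (prin_val c q' h)⟩
  have k2 := key D₁ D₂ hB1 hU2 fun c hc f hf q' hq' h hh => by
    by_cases hne : q' = q → h ≠ r
    · obtain ⟨y, hy, e⟩ := hc.2 q' hq' h hh hne
      exact Or.inl ⟨y, hy, e.trans (prin_val c q' h)⟩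
    · push Not at hne
      obtain ⟨rfl, rfl⟩ := hne
      exact Or.inr hf.2
  -- the count
  have hann : ∀ W : Submodule (ZMod p) Q,
      Nat.card W.dualAnnihilator * Nat.card W = Nat.card Q := fun W => by
    rw [Module.natCard_eq_pow_finrank (K := ZMod p), Module.natCard_eq_pow_finrank (K := ZMod p)
      (V := W), Module.natCard_eq_pow_finrank (K := ZMod p) (V := Q), ← pow_add, add_comm,
      Subspace.finrank_add_finrank_dualAnnihilator_eq]
  have e1 := natCard_imQ_mul_imV hp2 hζ hζK hS hB1 hU1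
  have e2 := natCard_imQ_mul_imV hp2 hζ hζK hS hB2 hU2
  have a1 := hann (imQ p K S D₁)
  have a2 := hann (imQ p K S D₂)
  have hUB : (powAt p S K).relIndex D₁ * (powAt p S K).relIndex D₂ = Nat.card V ^ 2 := by
    rw [← hS.card_sq, ← hsup, ← Subgroup.relIndex_mul_relIndex (powAt p S K) D₁ (D₁ ⊔ D₂) hB1
      le_sup_left, sup_comm, Subgroup.relIndex_sup_right D₂ D₁,
      ← Subgroup.inf_relIndex_right D₁ D₂, hinf]
  have le1 := natCard_le_of_lines F (imV p K S D₂) (imQ p K S D₁).dualAnnihilator k1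
    (fun a _ ha a' _ ha' => hinj a ha a' ha')
  have le2 := natCard_le_of_lines F (imV p K S D₁) (imQ p K S D₂).dualAnnihilator k2
    (fun a _ ha a' _ ha' => hinj a ha a' ha')
  have hN1 : Nat.card (imV p K S D₂) = Nat.card (imQ p K S D₁).dualAnnihilator := by
    refine le_antisymm le1 (Nat.le_of_mul_le_mul_right ?_ (Nat.card_pos (α := imV p K S D₁)))
    refine le_trans (Nat.mul_le_mul_left _ le2) (le_of_eq ?_)
    have hW1 : 0 < Nat.card (imQ p K S D₁) := Nat.card_pos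
    have hW2 : 0 < Nat.card (imQ p K S D₂) := Nat.card_pos
    refine Nat.eq_of_mul_eq_mul_right (Nat.mul_pos hW1 hW2) ?_
    calc Nat.card (imQ p K S D₁).dualAnnihilator * Nat.card (imQ p K S D₂).dualAnnihilator *
          (Nat.card (imQ p K S D₁) * Nat.card (imQ p K S D₂))
        = (Nat.card (imQ p K S D₁).dualAnnihilator * Nat.card (imQ p K S D₁)) *
          (Nat.card (imQ p K S D₂).dualAnnihilator * Nat.card (imQ p K S D₂)) := by ring
      _ = Nat.card V ^ 2 := by rw [a1, a2, hcardQ, sq]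
      _ = (Nat.card (imQ p K S D₁) * Nat.card (imV p K S D₁)) *
          (Nat.card (imQ p K S D₂) * Nat.card (imV p K S D₂)) := by rw [e1, e2, hUB]
      _ = _ := by ring
  have hfin : Module.finrank (ZMod p) (imV p K S D₂) =
      Module.finrank (ZMod p) (imQ p K S D₁).dualAnnihilator := by
    apply Nat.pow_right_injective hp.out.two_le
    have h1 := Module.natCard_eq_pow_finrank (K := ZMod p) (V := imV p K S D₂)
    have h2 := Module.natCard_eq_pow_finrank (K := ZMod p) (V := (imQ p K S D₁).dualAnnihilator)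
    rw [Nat.card_zmod] at h1 h2
    show p ^ _ = p ^ _
    rw [← h1, ← h2, hN1]
  set vx : V := modClass p x
  have hmemB : F vx ∈ (imQ p K S D₁).dualAnnihilator := by
    refine (Submodule.mem_dualAnnihilator _).mpr ?_
    rintro _ ⟨f, hf, rfl⟩
    refine (hF vx hx f).mpr ?_
    rw [hXb.1, hXb.2]
    have hu := value_mem_fieldAt f.2 r (q := q)
    have h1 := singleAt_mem_offPlace (S := S) (p := p) hq hu
    rw [← mul_inv_cancel_left (singleAt K q r ((f : PreIdele) q r)) (f : PreIdele)]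
    refine mul_mem (hall _ hu) ?_
    refine hXb.1 ▸ hXb.2 ▸ hcond vx hx _ (mul_mem (inv_mem h1.1) (hU1 hf)) fun q' hq' h hh => ?_
    refine Or.inr ?_
    by_cases hne : q' = q → h ≠ r
    · obtain ⟨y, hy, e⟩ := hf.2 q' hq' h hh hne
      refine ⟨y, hy, ?_⟩
      rw [e, Pi.mul_apply, Pi.mul_apply, Pi.inv_apply, Pi.inv_apply, singleAt_other hu hh hne,
        inv_one, one_mul]
      rfl
    · push Not at hne
      obtain ⟨rfl, rfl⟩ := hne
      exact ⟨1, one_mem _, by simp [singleAt_self hu hr]⟩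
  obtain ⟨a, ha, ha0, hax⟩ := exists_mem_span_of_lines F (imV p K S D₂)
    (imQ p K S D₁).dualAnnihilator hfin k1 (fun a _ ha a' _ ha' => hinj a ha a' ha')
    (F vx) hmemB (hF0 vx hx)
  obtain ⟨c, hc⟩ := Submodule.mem_span_singleton.mp (hinj a ha0 vx hx hax)
  have hc0 : c ≠ 0 := fun e => ha0 (by rw [← hc, e, zero_smul])
  have hvxA : vx ∈ imV p K S D₂ := by
    rw [← inv_smul_smul₀ hc0 vx, hc]; exact Submodule.smul_mem _ _ ha
  have hxD : prin (x : QBarˣ) ∈ D₂ := hXb.1 ▸ hclass D₂ hB2 vx hvxA hx hx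
  obtain ⟨y, hy, e⟩ := hxD.2
  exact hns ⟨y, hy, e.trans (prin_val _ q r)⟩

include hp2 hζ hζK in
/-- The norm group of `K(b ^ (1/p))` does not contain a place where `b` does not split. -/
theorem exists_singleAt_notMem_normSub {b : QBar} (hbK : b ∈ K) (hb0 : b ≠ 0) {g₀ : GQ}
    (hg₀ : g₀ ∈ K.fixingSubgroup) (hkum : kum hζ g₀ b = 1) {q : Nat.Primes}
    {r : GQ} (hr : placeRep q K r = r)
    (hns : ¬ ∃ y ∈ fieldAt q K r, y ^ p = emb q (r b)) :
    ∃ u : (Ω q)ˣ, (u : Ω q) ∈ fieldAt q K r ∧ singleAt K q r u ∉ normSub p K b g₀ := by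
  classical
  set bu : QBarˣ := Units.mk0 b hb0
  obtain ⟨T₀, hT₀⟩ := prin_mem_restricted bu
  obtain ⟨S, hTS, hS⟩ := exists_goodSet hp2 hζ hζK (insert q T₀)
  have hbS : bu ∈ sUnits S K := mem_sUnits.mpr ⟨hbK, fun q' hq' g =>
    hT₀ q' (fun h => hq' (hTS (Finset.mem_insert_of_mem h))) g⟩
  refine exists_notMem_normSub_of_good hp2 hζ hζK hS (x := ⟨bu, hbS⟩) hg₀ hkum (fun h => ?_)
    (hTS (Finset.mem_insert_self q T₀)) hr hns
  obtain ⟨y, hy⟩ := (modClass_eq_zero_iff _).mp h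
  refine hns ⟨emb q (r ((y : QBarˣ) : QBar)), emb_mem_fieldAt r (sUnits_le S K y.2), ?_⟩
  rw [← map_pow, ← map_pow]
  exact congrArg (fun z : QBar => emb q (r z)) (congrArg (fun z : sUnits S K => ((z : QBarˣ) : QBar)) hy)

end Fermat.Agent.CFT.Formation
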