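import Fermat.Agent.CFT.Formation.LocalGlobal
import Fermat.Agent.CFT.Idele.SecondIneq
import Fermat.Agent.CFT.Duality.Semilocal

/-!
# A step inside a decomposition group: some local element is not a global norm
-/

set_option autoImplicit false
set_option linter.unusedSectionVars false
set_option linter.style.haveILetI false

noncomputable section

namespace Fermat.Agent.CFT.Formation

open ExtCitation Fermat.Agent.Arith IntermediateField Fermat.Agent.CFT.Local Fermat.Agent.CFT.Idele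
open Fermat.Agent.CFT.Duality

local instance factPrimeNotNorm (q : Nat.Primes) : Fact (q : ℕ).Prime := ⟨q.2⟩

variable {p : ℕ} [hp : Fact p.Prime] {L : IntermediateField ℚ QBar} [FiniteDimensional ℚ L]
  [Normal ℚ L]

theorem exists_restrict_loc (q : Nat.Primes) (t : E L q ≃ₐ[ℚ_[(q : ℕ)]] E L q) :
    ∃ τ : Ω q ≃ₐ[ℚ_[(q : ℕ)]] Ω q, res L (loc q τ) = toGlobal (q : ℕ) L t := by
  obtain ⟨τ, rfl⟩ := AlgEquiv.restrictNormalHom_surjective (K₁ := E L q) (Ω q) t
  exact ⟨τ, (toGlobal_restrict (q : ℕ) L τ).symm⟩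

/-- A generator of the kernel description of the Kummer field of a resolvent. -/
theorem fixedQ_le_kumField {H K : Subgroup (L ≃ₐ[ℚ] L)} {g : L ≃ₐ[ℚ] L} (st : Step p H K g)
    {ζ : L} (hζ : IsPrimitiveRoot ζ p) (hH : ∀ h ∈ H, h ζ = ζ) {a : L} (ha0 : a ≠ 0)
    (haK : ∀ k ∈ K, k a = a) (hga : g a = ζ * a) {β : QBar} (hβ : β ^ p = (a : QBar) ^ p) :
    fixedQ L K ≤ kumField (fixedQ L H) β := by
  intro z hz
  rw [← InfiniteGalois.fixedField_fixingSubgroup (kumField (fixedQ L H) β),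
    IntermediateField.mem_fixedField_iff]
  intro σ hσ
  obtain ⟨hσF, hσβ⟩ := mem_fixingSubgroup_kumField.mp hσ
  have hσH := mem_fixingSubgroup_fixedQ.mp hσF
  have hζ' : IsPrimitiveRoot (ζ : QBar) p := hζ.map_of_injective (f := L.val) L.val.injective
  have ha0' : (a : QBar) ≠ 0 := fun h => ha0 (Subtype.ext h)
  obtain ⟨j, -, hj⟩ := exists_eq_zeta_pow_mul hζ' ha0' hβ
  have hσζ : σ (ζ : QBar) = ζ := (res_apply L σ ζ).symm.trans (congrArg Subtype.val (hH _ hσH))
  have hσa : res L σ a = a := by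
    refine Subtype.ext ((res_apply L σ a).trans ?_)
    rw [hj, map_mul, map_pow, hσζ] at hσβ
    exact mul_left_cancel₀ (pow_ne_zero _ (hζ'.ne_zero hp.out.ne_zero)) hσβ
  obtain ⟨i, hi, k, hk, e⟩ := st.exists_pow_mul hσH
  have hgi : ∀ n : ℕ, (g ^ n) a = ζ ^ n * a := fun n => by
    induction n with
    | zero => simp
    | succ n ih =>
      rw [pow_succ', AlgEquiv.mul_apply, ih, map_mul, map_pow, hga, hH g st.mem, pow_succ]
      ring
  rw [e, AlgEquiv.mul_apply, haK k hk, hgi] at hσa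
  have hi0 : ζ ^ i = 1 := mul_right_cancel₀ ha0 (by rw [hσa, one_mul])
  have : i = 0 := by
    by_contra h0
    exact (hζ.pow_ne_one_of_pos_of_lt h0 hi) hi0
  rw [this, pow_zero, one_mul] at e
  obtain ⟨z', hz', rfl⟩ := hz
  show σ (z' : QBar) = (z' : QBar)
  rw [← res_apply L σ z', e]
  exact congrArg Subtype.val ((IntermediateField.mem_fixedField_iff _ z').mp hz' k hk)

/-- In a step inside a decomposition group some invariant local element is not a norm of invariant
classes. -/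
theorem exists_loc_ne_norm (hp2 : p ≠ 2) {ζ : L} (hζ : IsPrimitiveRoot ζ p) (q : Nat.Primes)
    {H K : Subgroup (L ≃ₐ[ℚ] L)} {g : L ≃ₐ[ℚ] L} (hs : CFT.IsStep p H K g)
    (hHq : H ≤ decomp L q) :
    ∃ y : Additive (E L q)ˣ, (∀ t, toGlobal (q : ℕ) L t ∈ H → t • y = y) ∧
      ∀ w : C L, (∀ k ∈ K, k • w = w) →
        proj L (loc' L q y) ≠ ∑ i ∈ Finset.range p, g ^ i • w := by
  classical
  have st := step_of_isStep hs
  have hH := fixes_zeta hζ hs.isPGroup
  obtain ⟨a, ha0, haK, hga⟩ := exists_resolvent st hζ hH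
  set F := fixedQ L H
  set ζ' : QBar := (ζ : QBar)
  have hζ' : IsPrimitiveRoot ζ' p := hζ.map_of_injective (f := L.val) L.val.injective
  have hζF : ζ' ∈ F := (mem_fixedQ ζ).mpr hH
  set g₀ := lift L g
  set b : QBar := (a : QBar) ^ p
  have ha0' : (a : QBar) ≠ 0 := fun h => ha0 (Subtype.ext h)
  have hb0 : b ≠ 0 := pow_ne_zero _ ha0'
  obtain ⟨hg₀, hbF, hkum⟩ : g₀ ∈ F.fixingSubgroup ∧ b ∈ F ∧ kum hζ' g₀ b = 1 :=
    resolvent_pow_kum st hζ hH ha0 haK hga hζ'
  set r := placeRep q F (1 : GQ)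
  obtain ⟨τ₁, s₁, hs₁, e1⟩ := placeRep_spec (q := q) (K := F) (1 : GQ)
  have hr : placeRep q F r = r := placeRep_idem _
  -- `b` does not split at the place
  have hns : ¬ ∃ y ∈ fieldAt q F r, y ^ p = emb q (r b) := by
    rintro ⟨y, hy, hyp⟩
    have hbfix : s₁ b = b := (IntermediateField.mem_fixingSubgroup_iff _ _).mp hs₁ b hbF
    have hy1 : (τ₁ y) ^ p = emb q ((a : QBar)) ^ p := by
      rw [← map_pow, hyp, ← emb_loc, ← map_pow]
      congr 1
      conv_lhs => rw [← hbfix, ← AlgEquiv.mul_apply, ← AlgEquiv.mul_apply, ← e1,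
        AlgEquiv.one_apply]
    obtain ⟨t, ht⟩ := MonoidHom.mem_range.1 (hHq st.mem)
    obtain ⟨τ, hτ⟩ := exists_restrict_loc q t
    rw [ht] at hτ
    have hτF : loc q τ ∈ F.fixingSubgroup :=
      mem_fixingSubgroup_fixedQ.mpr (by rw [hτ]; exact st.mem)
    have hτy : τ (τ₁ y) = τ₁ y := by
      refine (IntermediateField.mem_fixingSubgroup_iff _ _).mp
        ((fixes_fieldAt_iff (L := F) τ 1).mpr (by simpa using hτF)) _ ?_
      -- `τ₁` carries the field at `r` to the field at `1`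
      have hmap : (fieldAt q F r).map (τ₁ : Ω q →ₐ[ℚ_[(q : ℕ)]] Ω q) ≤ fieldAt q F 1 := by
        rw [fieldAt, IntermediateField.adjoin_map]
        refine IntermediateField.adjoin_le_iff.mpr ?_
        rintro _ ⟨_, ⟨x, hx, rfl⟩, rfl⟩
        show τ₁ (emb q (r x)) ∈ _
        rw [← emb_loc, ← AlgEquiv.mul_apply,
          show x = s₁ x from ((IntermediateField.mem_fixingSubgroup_iff _ _).mp hs₁ x hx).symm,
          ← AlgEquiv.mul_apply, ← e1]
        exact emb_mem_fieldAt 1 hx
      exact hmap ⟨y, hy, rfl⟩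
    have hA0 : emb q (a : QBar) ≠ 0 := (map_ne_zero _).mpr ha0'
    have hζq : IsPrimitiveRoot (emb q ζ') p := hζ'.map_of_injective (emb q).toRingHom.injective
    haveI : NeZero p := ⟨hp.out.ne_zero⟩
    obtain ⟨i, -, hi⟩ := hζq.eq_pow_of_pow_eq_one
      (show (τ₁ y / emb q (a : QBar)) ^ p = 1 by rw [div_pow, hy1, div_self (pow_ne_zero _ hA0)])
    rw [← (div_eq_iff hA0).mp hi.symm |>.symm, map_mul, map_pow, ← emb_loc, ← emb_loc,
      show loc q τ ζ' = ζ' from (IntermediateField.mem_fixingSubgroup_iff _ _).mp hτF _ hζF] at hτy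
    have hla : emb q (loc q τ (a : QBar)) = emb q (a : QBar) :=
      mul_left_cancel₀ (pow_ne_zero i (hζq.ne_zero hp.out.ne_zero)) hτy
    rw [← res_apply L (loc q τ) a, hτ, hga] at hla
    have hzz : ζ * a = a := Subtype.ext ((emb q).toRingHom.injective hla)
    exact hζ.ne_one hp.out.one_lt (mul_right_cancel₀ ha0 (hzz.trans (one_mul a).symm))
  obtain ⟨u, hu, hnot⟩ := exists_singleAt_notMem_normSub hp2 hζ' hζF hbF hb0 hg₀ hkum hr hns
  set f : idl L := ⟨singleAt F q r u, idl_mono (fixedQ_le H) (singleAt_mem hu)⟩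
  have hfH : ∀ h ∈ H, h • f = f := by
    have := (mem_fixedBy_idl_iff (K := F) L f).mpr (singleAt_mem hu)
    rw [map_fixingSubgroup_fixedQ] at this
    exact this
  refine ⟨Additive.ofMul (val f q 1), fun t ht => congrArg Additive.ofMul ?_, ?_⟩
  · rw [toMul_ofMul, ← val_toGlobal_mul, mul_one]
    conv_rhs => rw [← hfH _ ht, val_smul, one_mul]
  have hloc : loc' L q (Additive.ofMul (val f q 1)) = Additive.ofMul f := by
    refine J_ext fun q' σ => ?_
    show val (locIdl q (val f q 1)) q' σ = val f q' σ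
    have hoff : (q' = q → σ ∉ decomp L q) → val f q' σ = 1 := fun hne => by
      refine Units.ext (Subtype.ext ?_)
      rw [coe_val f q' (res_lift L σ)]
      obtain ⟨τ, s, hs', e⟩ := placeRep_spec (q := q') (K := F) (lift L σ)
      rw [e, apply_eq_of_rep (singleAt_mem hu) q' τ _ hs',
        singleAt_other hu (placeRep_idem _) fun hq' hrep => hne hq' ?_, Units.val_one, map_one]
      · simp
      · subst hq'
        have er : r = (loc q' τ₁)⁻¹ * s₁⁻¹ := by
          calc r = (loc q' τ₁)⁻¹ * (loc q' τ₁ * r * s₁) * s₁⁻¹ := by group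
            _ = _ := by rw [show loc q' τ₁ * r * s₁ = 1 from e1.symm, mul_one]
        rw [← res_lift L σ, e, hrep, er]
        simp only [map_mul, map_inv]
        have h1 : ∀ τ' : Ω q' ≃ₐ[ℚ_[(q' : ℕ)]] Ω q', res L (loc q' τ') ∈ decomp L q' := fun τ' =>
          ⟨AlgEquiv.restrictNormalHom (E L q') τ', toGlobal_restrict (q' : ℕ) L τ'⟩
        exact mul_mem (mul_mem (h1 τ) (mul_mem (inv_mem (h1 τ₁))
          (inv_mem (hHq (mem_fixingSubgroup_fixedQ.mp hs₁))))) (hHq (mem_fixingSubgroup_fixedQ.mp hs'))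
    rcases eq_or_ne q' q with rfl | hne
    · by_cases hσ : σ ∈ decomp L q'
      · obtain ⟨t, rfl⟩ := MonoidHom.mem_range.1 hσ
        rw [val_locIdl_self, ← val_toGlobal_mul, mul_one]
      · rw [val_locIdl_of_notMem q' _ hσ, hoff fun _ => hσ]
    · rw [val_locIdl_of_ne q _ hne, hoff fun e => absurd e hne]
  intro w hw heq
  obtain ⟨y, hy, hyw⟩ := exists_fixed_rep K (x := w.toMul) fun k hk => congrArg Additive.toMul (hw k hk)
  set N : idl L := ∏ i ∈ Finset.range p, g ^ i • y
  have hcl : (QuotientGroup.mk f : ClassGrp L) = QuotientGroup.mk N := by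
    have e := congrArg Additive.toMul heq
    rw [hloc, toMul_sum'] at e
    refine e.trans ?_
    rw [show (QuotientGroup.mk N : ClassGrp L) = QuotientGroup.mk' (prinL L).range N from rfl, map_prod]
    refine Finset.prod_congr rfl fun i _ => ?_
    show g ^ i • w.toMul = _
    rw [← hyw]
    exact smul_mk L _ y
  obtain ⟨c, hc⟩ := QuotientGroup.eq.mp hcl.symm
  have hyF : (y : PreIdele) ∈ idl (fixedQ L K) := by
    refine (mem_fixedBy_idl_iff (K := fixedQ L K) L y).mp ?_
    rwa [map_fixingSubgroup_fixedQ]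
  have hyk : (y : PreIdele) ∈ idl (kumField F (rootP p b)) :=
    idl_mono (fixedQ_le_kumField st hζ hH ha0 haK hga (rootP_pow b)) hyF
  have hN : (N : PreIdele) = normStep p g₀ (y : PreIdele) := by
    have hg : g = res L g₀ := (res_lift L g).symm
    simp only [N]
    rw [hg]
    exact coe_prod_smul L g₀ p y
  set cu : QBarˣ := Units.map L.val.toRingHom.toMonoidHom c
  have hcf : prin cu = (N : PreIdele)⁻¹ * singleAt F q r u := congrArg Subtype.val hc
  have hNi : normStep p g₀ (y : PreIdele) ∈ idl F :=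
    normStep_mem_idl hζ' hζF hbF hb0 hg₀ hkum hyk
  have hcF : prin cu ∈ idl F := by
    rw [hcf, hN]
    exact mul_mem (inv_mem hNi) (singleAt_mem hu)
  refine hnot ?_
  rw [show singleAt F q r u = prin cu * (N : PreIdele) by
    rw [hcf, mul_comm, mul_inv_cancel_left], hN]
  exact Subgroup.mul_mem_sup ⟨cu, prin_mem_idl_iff.mp hcF, rfl⟩ ⟨_, hyk, rfl⟩

end Fermat.Agent.CFT.Formation
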