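import Fermat.Agent.CFT.Idele.KummerDual

/-!
# The count behind local-global compatibility of norm groups

For a good set `S` and a subgroup `D` between `powAt` and the ideles which are units outside `S`:
the image of `D` in `ModQ` times the `S`-units lying in `D` has order `[D : powAt]`.
-/

set_option autoImplicit false
set_option linter.unusedSectionVars false
set_option linter.style.haveILetI false

noncomputable section

namespace Fermat.Agent.CFT.Formation

open ExtCitation Fermat.Agent.Arith IntermediateField Fermat.Agent.CFT.Idele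

local instance factPrimeSplitCount (q : Nat.Primes) : Fact (q : ℕ).Prime := ⟨q.2⟩

variable {p : ℕ} [hp : Fact p.Prime] {K : IntermediateField ℚ QBar} {ζ : QBar}
  {S : Finset Nat.Primes}

variable (p S K) in
/-- The image in `ModQ`. -/
def imQ (D : Subgroup PreIdele) : Submodule (ZMod p) (ModQ p S K) :=
  AddSubgroup.toZModSubmodule p (Subgroup.toAddSubgroup
    ((D.subgroupOf (idl K)).map (QuotientGroup.mk' (qSub p S K))))

variable (p S K) in
/-- The classes of `S`-units lying in `D`. -/
def imV (D : Subgroup PreIdele) : Submodule (ZMod p) (ModP p (sUnits S K)) :=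
  AddSubgroup.toZModSubmodule p (Subgroup.toAddSubgroup
    (((D.comap prin).subgroupOf (sUnits S K)).map (QuotientGroup.mk' _)))

theorem exists_of_mem_imV {D : Subgroup PreIdele} {v : ModP p (sUnits S K)}
    (hv : v ∈ imV p K S D) : ∃ x : sUnits S K, modClass p x = v ∧ prin (x : QBarˣ) ∈ D := by
  obtain ⟨x, hx, e⟩ := hv
  exact ⟨x, congrArg Additive.ofMul e, hx⟩

theorem natCard_imQ (hS : GoodSet p S K) {D : Subgroup PreIdele} (hD : D ≤ idl K) :
    Nat.card (imQ p K S D) = (prinSub K ⊔ powAt p S K).relIndex D := by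
  show Nat.card ((D.subgroupOf (idl K)).map (QuotientGroup.mk' (qSub p S K))) = _
  rw [← Subgroup.relIndex_ker, QuotientGroup.ker_mk', qSub_eq hS, Subgroup.relIndex_subgroupOf hD]

variable [FiniteDimensional ℚ K] (hp2 : p ≠ 2) (hζ : IsPrimitiveRoot ζ p) (hζK : ζ ∈ K)
  (hS : GoodSet p S K)

include hp2 hζ hζK hS in
/-- An `S`-unit which is locally a `p`-th power at `S` is a `p`-th power. -/
theorem exists_pow_of_prin_mem (x : sUnits S K) (hx : prin (x : QBarˣ) ∈ powAt p S K) :
    ∃ y : sUnits S K, y ^ p = x := by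
  rw [← modClass_eq_zero_iff]
  by_contra hne
  have hr := rootP_notMem hζ hζK hne
  have hxK := sUnits_le S K x.2
  obtain ⟨g₀, hg₀, hkum⟩ := exists_kum_eq_one hζ hζK hxK (Units.ne_zero _) hr
  have hidx := relIndex_normSub hp2 hζ hζK hxK (Units.ne_zero _) hg₀ hkum hr
  refine hp.out.ne_one (hidx.symm.trans (Subgroup.relIndex_eq_one.mpr fun f hf => ?_))
  obtain ⟨c, hc, hfc⟩ := hS.gen f hf
  have h1 : f * prin c ∈ normSub p K ((x : QBarˣ) : QBar) g₀ :=
    mem_normSub_of_cond hp2 hζ hζK hxK (Units.ne_zero _) hg₀ hkum hfc.1 fun q h hh => by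
      by_cases hq : q ∈ S
      · exact Or.inl (hx.2 q hq h hh)
      · exact locNormCond_of_units hS.mem hq (hfc.2 q hq h) ((mem_sUnits.mp x.2).2 q hq h)
  have h2 := mul_mem h1 (inv_mem (Subgroup.mem_sup_left (T := (idl (kumField K
    (rootP p ((x : QBarˣ) : QBar)))).map (normStepHom p g₀)) ⟨c, hc, rfl⟩))
  rwa [mul_inv_cancel_right] at h2

include hp2 hζ hζK hS in
/-- The count at one subgroup. -/
theorem natCard_imQ_mul_imV {D : Subgroup PreIdele} (hBD : powAt p S K ≤ D)
    (hDU : D ≤ unitsOutside S K) :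
    Nat.card (imQ p K S D) * Nat.card (imV p K S D) = (powAt p S K).relIndex D := by
  have hDi : D ≤ idl K := fun f hf => (hDU hf).1
  set B := powAt p S K
  set A' : Subgroup QBarˣ := sUnits S K ⊓ D.comap prin
  have hPD : prinSub K ⊓ D = A'.map prin := by
    ext f
    constructor
    · rintro ⟨⟨x, hx, rfl⟩, hf⟩
      exact ⟨x, ⟨⟨hx, hDU hf⟩, hf⟩, rfl⟩
    · rintro ⟨x, ⟨⟨hx, -⟩, hf⟩, rfl⟩
      exact ⟨⟨x, hx, rfl⟩, hf⟩
  have hX : D ⊓ (prinSub K ⊔ B) = A'.map prin ⊔ B := by
    refine le_antisymm ?_ (sup_le ?_ (le_inf hBD le_sup_right))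
    · rintro f ⟨hf, hf'⟩
      obtain ⟨c, hc, e, he, rfl⟩ := Subgroup.mem_sup.mp hf'
      refine Subgroup.mul_mem_sup ?_ he
      rw [← hPD]
      have := D.mul_mem hf (D.inv_mem (hBD he))
      rw [mul_inv_cancel_right] at this
      exact ⟨hc, this⟩
    · rw [← hPD]
      exact le_inf inf_le_right (inf_le_left.trans le_sup_left)
  have hker : (QuotientGroup.mk' (powMonoidHom p : sUnits S K →* sUnits S K).range).ker =
      (B.comap prin).subgroupOf (sUnits S K) := by
    rw [QuotientGroup.ker_mk']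
    ext x
    refine ⟨?_, fun h => exists_pow_of_prin_mem hp2 hζ hζK hS x h⟩
    rintro ⟨y, rfl⟩
    rw [Subgroup.mem_subgroupOf, Subgroup.mem_comap, powMonoidHom_apply, SubmonoidClass.coe_pow,
      map_pow]
    exact prin_pow_mem_powAt y
  have hV : Nat.card (imV p K S D) = B.relIndex (A'.map prin) := by
    show Nat.card (((D.comap prin).subgroupOf (sUnits S K)).map (QuotientGroup.mk' _)) = _
    rw [← Subgroup.relIndex_ker, hker,
      show (D.comap prin).subgroupOf (sUnits S K) = A'.subgroupOf (sUnits S K) from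
        (Subgroup.inf_subgroupOf_left _ _).symm,
      Subgroup.relIndex_subgroupOf inf_le_left, Subgroup.relIndex_comap]
  rw [natCard_imQ hS hDi, hV, ← Subgroup.inf_relIndex_left D (prinSub K ⊔ B), hX,
    ← Subgroup.relIndex_sup_right (A'.map prin) B, mul_comm]
  exact Subgroup.relIndex_mul_relIndex B _ D le_sup_right (hX ▸ inf_le_left)

end Fermat.Agent.CFT.Formation
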